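import Mathlib

set_option autoImplicit false

namespace Fermat.Agent.S53_helper96

open Module TensorProduct

section RigidData

variable {k : Type*} [Field k] {V : Type*} [AddCommGroup V] [Module k V]
variable {G : Type*} [Monoid G]

/-- From absolute irreducibility (formulated after base change to an algebraically closed
extension `K`) of a two-dimensional representation we extract: a vector `v` and `g0` with
`v, ρ g0 v` linearly independent, and `g1` with `ρ g0` and `ρ g1` not commuting. -/
theorem exists_rigid_data_aux (K : Type*) [Field K] [Algebra k K] [IsAlgClosed K]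
    (h2 : Module.finrank k V = 2) (ρ : G →* Module.End k V)
    (hirr : ∀ U : Submodule K (K ⊗[k] V), (∀ g, ∀ x ∈ U, (ρ g).baseChange K x ∈ U) →
      U = ⊥ ∨ U = ⊤) :
    ∃ (v : V) (g0 g1 : G), LinearIndependent k ![v, ρ g0 v] ∧ ρ g0 * ρ g1 ≠ ρ g1 * ρ g0 := by
  have : Module.Finite k V := Module.finite_of_finrank_eq_succ h2
  have : Nontrivial V := Module.nontrivial_of_finrank_pos (R := k) (by omega)
  have hK2 : Module.finrank K (K ⊗[k] V) = 2 := by rw [Module.finrank_baseChange, h2]
  -- step (a)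
  have ha : ∃ (v : V) (g0 : G), LinearIndependent k ![v, ρ g0 v] := by
    by_contra hcon
    push Not at hcon
    have hscal : ∀ g, ∃ a : k, ρ g = a • (1 : Module.End k V) := fun g =>
      LinearMap.exists_eq_smul_id_of_forall_notLinearIndependent (fun v => hcon v g)
    obtain ⟨v, hv⟩ := exists_ne (0 : V)
    let U : Submodule K (K ⊗[k] V) := Submodule.span K {(1 : K) ⊗ₜ[k] v}
    have hU : ∀ g, ∀ x ∈ U, (ρ g).baseChange K x ∈ U := by
      intro g x hx
      obtain ⟨a, ha⟩ := hscal g
      have : (ρ g).baseChange K = a • (1 : Module.End K (K ⊗[k] V)) := by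
        rw [ha]
        ext w
        simp
      rw [this]
      simpa using U.smul_mem (algebraMap k K a) hx
    rcases hirr U hU with h | h
    · have h0 : (1 : K) ⊗ₜ[k] v ∈ U := Submodule.subset_span rfl
      rw [h, Submodule.mem_bot] at h0
      have hinj := Module.Flat.tensorProduct_mk_injective k V K
      have : (TensorProduct.mk k K V 1) v = (TensorProduct.mk k K V 1) 0 := by
        rw [map_zero]; exact h0
      exact hv (hinj this)
    · have h1 : Module.finrank K U ≤ 1 := by
        simpa using (finrank_span_le_card (R := K) ({(1 : K) ⊗ₜ[k] v} : Set (K ⊗[k] V)))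
      rw [h, finrank_top, hK2] at h1
      omega
  obtain ⟨v, g0, hlin⟩ := ha
  refine ⟨v, g0, ?_⟩
  by_contra hcon
  push Not at hcon
  have hcomm : ∀ g1, ρ g0 * ρ g1 = ρ g1 * ρ g0 := fun g1 => hcon g1 hlin
  have : Module.Finite K (K ⊗[k] V) := Module.Finite.base_change k K V
  have : Nontrivial (K ⊗[k] V) := Module.nontrivial_of_finrank_pos (R := K) (by omega)
  let f : Module.End K (K ⊗[k] V) := (ρ g0).baseChange K
  obtain ⟨μ, hμ⟩ := Module.End.exists_eigenvalue f
  let U : Submodule K (K ⊗[k] V) := f.eigenspace μ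
  have hU : ∀ g, ∀ x ∈ U, (ρ g).baseChange K x ∈ U := by
    intro g x hx
    rw [Module.End.mem_eigenspace_iff] at hx ⊢
    have hc : f ((ρ g).baseChange K x) = (ρ g).baseChange K (f x) := by
      have := congrArg (fun T => LinearMap.baseChange K T) (hcomm g)
      simp only [LinearMap.baseChange_mul] at this
      exact LinearMap.congr_fun this x
    rw [hc, hx, map_smul]
  rcases hirr U hU with h | h
  · exact hμ h
  · have hb : LinearIndependent K (fun i : Fin 2 => (1 : K) ⊗ₜ[k] (![v, ρ g0 v] i)) :=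
      Module.Flat.linearIndependent_one_tmul (S := K) hlin
    have h1 : f ((1 : K) ⊗ₜ[k] v) = μ • ((1 : K) ⊗ₜ[k] v) := by
      have : (1 : K) ⊗ₜ[k] v ∈ U := by rw [h]; trivial
      exact Module.End.mem_eigenspace_iff.mp this
    have h2' : f ((1 : K) ⊗ₜ[k] v) = (1 : K) ⊗ₜ[k] (ρ g0 v) := LinearMap.baseChange_tmul _ _ _
    rw [h2'] at h1
    have hb' : LinearIndependent K ![(1 : K) ⊗ₜ[k] v, (1 : K) ⊗ₜ[k] (ρ g0 v)] := by
      convert hb using 1
      ext i; fin_cases i <;> rfl
    rw [LinearIndependent.pair_iff] at hb'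
    have := hb' (-μ) 1 (by simp [h1])
    exact one_ne_zero this.2

/-- Matrix form of the rigidification data. -/
theorem exists_rigid_data (K : Type*) [Field K] [Algebra k K] [IsAlgClosed K]
    (h2 : Module.finrank k V = 2) (ρ : G →* Module.End k V)
    (hirr : ∀ U : Submodule K (K ⊗[k] V), (∀ g, ∀ x ∈ U, (ρ g).baseChange K x ∈ U) →
      U = ⊥ ∨ U = ⊤) :
    ∃ (b : Module.Basis (Fin 2) k V) (g0 g1 : G) (i j : Fin 2),
      LinearMap.toMatrix b b (ρ g0) 0 0 = 0 ∧ LinearMap.toMatrix b b (ρ g0) 1 0 = 1 ∧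
      (LinearMap.toMatrix b b (ρ g0) * LinearMap.toMatrix b b (ρ g1)
        - LinearMap.toMatrix b b (ρ g1) * LinearMap.toMatrix b b (ρ g0)) i j ≠ 0 := by
  obtain ⟨v, g0, g1, hlin, hne⟩ := exists_rigid_data_aux K h2 ρ hirr
  let b : Module.Basis (Fin 2) k V :=
    basisOfLinearIndependentOfCardEqFinrank hlin (by simp [h2])
  have hb0 : b 0 = v := by simp [b]
  have hb1 : b 1 = ρ g0 v := by simp [b]
  have hne' : LinearMap.toMatrix b b (ρ g0) * LinearMap.toMatrix b b (ρ g1)
      - LinearMap.toMatrix b b (ρ g1) * LinearMap.toMatrix b b (ρ g0) ≠ 0 := by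
    rw [← LinearMap.toMatrix_mul, ← LinearMap.toMatrix_mul, ← map_sub]
    intro h
    have := (LinearMap.toMatrix b b).injective (h.trans (map_zero _).symm)
    exact hne (sub_eq_zero.mp this)
  have : ∃ i j, (LinearMap.toMatrix b b (ρ g0) * LinearMap.toMatrix b b (ρ g1)
      - LinearMap.toMatrix b b (ρ g1) * LinearMap.toMatrix b b (ρ g0)) i j ≠ 0 := by
    by_contra hcon
    push Not at hcon
    exact hne' (Matrix.ext hcon)
  obtain ⟨i, j, hij⟩ := this
  refine ⟨b, g0, g1, i, j, ?_, ?_, hij⟩
  · rw [LinearMap.toMatrix_apply, hb0, ← hb1]; simp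
  · rw [LinearMap.toMatrix_apply, hb0, ← hb1]; simp

end RigidData

end Fermat.Agent.S53_helper96
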