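import Fermat.Agent.S53_helper96.Tangent
import Fermat.Agent.S53.ProRep.Basic

set_option autoImplicit false
set_option linter.unusedSectionVars false
set_option linter.style.haveILetI false

noncomputable section

namespace Fermat.Agent.S53_helper96

open Fermat.Agent.S53_helper35 Fermat.Agent.S53_helper84 IsLocalRing GaloisRep
open Fermat.Agent.S53.ProRep

variable {𝒪 : Type} [CommRing 𝒪] [IsLocalRing 𝒪] [Finite (ResidueField 𝒪)] {D : Datum 𝒪}
  {𝒟 : ∀ ⦃A : Type⦄ [CommRing A] [IsLocalRing A] [Algebra 𝒪 A], GaloisRepAdic A → Prop}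
  (ρbar : ResidualGaloisRep (ResidueField 𝒪))
  (b : Module.Basis (Fin 2) (ResidueField 𝒪) ρbar.V) (hb : D.rbar = toMatRes ρbar b)

include hb in
/-- The family of rigid ideals is admissible in the sense of `ProRep`. -/
theorem family_isAdmissible (h𝒟 : IsDeformationCondition 𝒪 𝒟)
    (hbar : 𝒟 (ofMat D.rbar (matCont_of_resCont D.hrbar)))
    (hfin : TangentFinite 𝒪 ρbar 𝒟) :
    IsAdmissibleFamily 𝒪 (Lam 𝒪) (Mid D) (Family D 𝒟) where
  isMaximal := Mid_isMaximal D
  residue_surjective := by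
    intro y
    obtain ⟨f, rfl⟩ := Ideal.Quotient.mk_surjective y
    obtain ⟨a, ha⟩ := exists_sub_algebraMap_mem_Mid D f
    refine ⟨a, ?_⟩
    rw [Function.comp_apply, eq_comm, Ideal.Quotient.eq]
    exact ha
  le := fun _ hI => Family.le hI
  pow_le := fun _ hI => Family.pow_le hI
  finite := fun _ hI => Family.finite hI
  inf_mem := fun _ hI _ hJ => Family.inf_mem h𝒟 hI hJ
  mem_of_le := fun _ hI _ hIJ hJ => Family.mem_of_le h𝒟 hI hIJ hJ
  max_mem := Family.max_mem h𝒟 hbar
  tangent_bound := Family.tangent_bound ρbar b hb h𝒟 hfin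

end Fermat.Agent.S53_helper96
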