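import Fermat.Agent.S53_helper96.RigidLift

set_option autoImplicit false
set_option linter.unusedSectionVars false
set_option linter.style.haveILetI false

noncomputable section

namespace Fermat.Agent.S53_helper96

open Fermat.Agent.S53_helper35 Fermat.Agent.S53_helper84 IsLocalRing GaloisRep

section QuotLocal

variable {Λ : Type*} [CommRing Λ] (M : Ideal Λ) [hM : M.IsMaximal]

/-- Quotients by ideals squeezed between a power of a maximal ideal and the maximal ideal are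
local. -/
theorem isLocalRing_quotient_of_pow_le {I : Ideal Λ} (hI : I ≤ M) {n : ℕ} (hn : M ^ n ≤ I) :
    IsLocalRing (Λ ⧸ I) := by
  have hmax : (M.map (Ideal.Quotient.mk I)).IsMaximal :=
    Ideal.IsMaximal.map_of_surjective_of_ker_le Ideal.Quotient.mk_surjective
      (by rwa [Ideal.mk_ker])
  refine IsLocalRing.of_unique_max_ideal ⟨M.map (Ideal.Quotient.mk I), hmax, ?_⟩
  intro 𝔫 h𝔫
  have h1 : (𝔫.comap (Ideal.Quotient.mk I)).IsMaximal :=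
    Ideal.comap_isMaximal_of_surjective _ Ideal.Quotient.mk_surjective
  have h2 : M ^ n ≤ 𝔫.comap (Ideal.Quotient.mk I) := by
    refine hn.trans ?_
    intro x hx
    rw [Ideal.mem_comap, Ideal.Quotient.eq_zero_iff_mem.mpr hx]
    exact 𝔫.zero_mem
  have h3 : M ≤ 𝔫.comap (Ideal.Quotient.mk I) := h1.isPrime.le_of_pow_le h2
  have h4 : M = 𝔫.comap (Ideal.Quotient.mk I) := hM.eq_of_le h1.ne_top h3
  rw [h4, Ideal.map_comap_of_surjective _ Ideal.Quotient.mk_surjective]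

theorem mk_mem_maximalIdeal_iff {I : Ideal Λ} {n : ℕ} (hn : M ^ n ≤ I)
    [IsLocalRing (Λ ⧸ I)] (x : Λ) :
    Ideal.Quotient.mk I x ∈ maximalIdeal (Λ ⧸ I) ↔ x ∈ M := by
  have h1 : ((maximalIdeal (Λ ⧸ I)).comap (Ideal.Quotient.mk I)).IsMaximal :=
    Ideal.comap_isMaximal_of_surjective _ Ideal.Quotient.mk_surjective
  have h2 : M ^ n ≤ (maximalIdeal (Λ ⧸ I)).comap (Ideal.Quotient.mk I) := by
    refine hn.trans ?_
    intro x hx
    rw [Ideal.mem_comap, Ideal.Quotient.eq_zero_iff_mem.mpr hx]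
    exact Ideal.zero_mem _
  have h3 : M ≤ (maximalIdeal (Λ ⧸ I)).comap (Ideal.Quotient.mk I) := h1.isPrime.le_of_pow_le h2
  have h4 : M = (maximalIdeal (Λ ⧸ I)).comap (Ideal.Quotient.mk I) :=
    hM.eq_of_le h1.ne_top h3
  rw [h4, Ideal.mem_comap]

theorem maximalIdeal_quotient_pow_eq_bot {I : Ideal Λ} {n : ℕ} (hn : M ^ n ≤ I)
    [IsLocalRing (Λ ⧸ I)] : maximalIdeal (Λ ⧸ I) ^ n = ⊥ := by
  have h : maximalIdeal (Λ ⧸ I) = M.map (Ideal.Quotient.mk I) := by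
    ext y
    obtain ⟨x, rfl⟩ := Ideal.Quotient.mk_surjective y
    rw [mk_mem_maximalIdeal_iff M hn]
    constructor
    · exact fun hx => Ideal.mem_map_of_mem _ hx
    · intro hx
      rw [Ideal.mem_map_iff_of_surjective _ Ideal.Quotient.mk_surjective] at hx
      obtain ⟨x', hx', hxx⟩ := hx
      have : x - x' ∈ I := by
        rw [← Ideal.Quotient.eq_zero_iff_mem, map_sub, hxx, sub_self]
      have h5 : I ≤ M := by
        intro z hz
        have := (mk_mem_maximalIdeal_iff M hn (I := I) z).mp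
          (by rw [Ideal.Quotient.eq_zero_iff_mem.mpr hz]; exact Ideal.zero_mem _)
        exact this
      have := M.add_mem (h5 this) hx'
      simpa using this
  rw [h, ← Ideal.map_pow, eq_bot_iff]
  intro y hy
  rw [Ideal.mem_map_iff_of_surjective _ Ideal.Quotient.mk_surjective] at hy
  obtain ⟨x, hx, rfl⟩ := hy
  rw [Ideal.mem_bot, Ideal.Quotient.eq_zero_iff_mem]
  exact hn hx

end QuotLocal

/-- Index set of the tautological matrix entries. -/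
abbrev Idx : Type := GQ × Fin 2 × Fin 2

/-- The polynomial ring on the tautological matrix entries. -/
abbrev Lam (𝒪 : Type) [CommRing 𝒪] : Type := MvPolynomial Idx 𝒪

section Eval

variable (𝒪 : Type) [CommRing 𝒪] in
/-- Evaluation of the tautological entries at a matrix valued function. -/
def evA {A : Type} [CommRing A] [Algebra 𝒪 A] (r : GQ → Matrix (Fin 2) (Fin 2) A) :
    Lam 𝒪 →ₐ[𝒪] A :=
  MvPolynomial.aeval (fun s : Idx => r s.1 s.2.1 s.2.2)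

@[simp] theorem evA_X {𝒪 : Type} [CommRing 𝒪] {A : Type} [CommRing A] [Algebra 𝒪 A]
    (r : GQ → Matrix (Fin 2) (Fin 2) A) (σ : GQ) (a b : Fin 2) :
    evA 𝒪 r (MvPolynomial.X (σ, a, b)) = r σ a b := by
  simp [evA]

variable {𝒪 : Type} [CommRing 𝒪] [IsLocalRing 𝒪] (D : Datum 𝒪)

/-- The residual point. -/
def evk : Lam 𝒪 →ₐ[𝒪] ResidueField 𝒪 := evA 𝒪 (fun σ => D.rbar σ)

/-- The maximal ideal of the residual point. -/
def Mid : Ideal (Lam 𝒪) := RingHom.ker (evk D)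

theorem evk_surjective : Function.Surjective (evk D) := by
  intro y
  obtain ⟨a, rfl⟩ := residue_surjective y
  exact ⟨algebraMap 𝒪 (Lam 𝒪) a, by rw [AlgHom.commutes]; rfl⟩

instance Mid_isMaximal : (Mid D).IsMaximal :=
  RingHom.ker_isMaximal_of_surjective _ (evk_surjective D)

theorem algebraMap_mem_Mid_iff (a : 𝒪) :
    algebraMap 𝒪 (Lam 𝒪) a ∈ Mid D ↔ a ∈ maximalIdeal 𝒪 := by
  rw [Mid, RingHom.mem_ker, AlgHom.commutes, ← residue_eq_zero_iff]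
  rfl

theorem exists_sub_algebraMap_mem_Mid (f : Lam 𝒪) :
    ∃ a : 𝒪, f - algebraMap 𝒪 (Lam 𝒪) a ∈ Mid D := by
  obtain ⟨a, ha⟩ := residue_surjective (evk D f)
  refine ⟨a, ?_⟩
  rw [Mid, RingHom.mem_ker, map_sub, AlgHom.commutes, sub_eq_zero, ← ha]
  rfl

variable {D}
variable {A : Type} [CommRing A] [IsLocalRing A] [Algebra 𝒪 A]

/-- Compatibility of an evaluation at a lift with the residual point. -/
theorem residue_comp_evA [IsLocalHom (algebraMap 𝒪 A)] {r : GQ → Matrix (Fin 2) (Fin 2) A}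
    (h : LiftsMod D r) :
    (residue A).comp (evA 𝒪 r : Lam 𝒪 →+* A)
      = (ResidueField.map (algebraMap 𝒪 A)).comp (evk D : Lam 𝒪 →+* ResidueField 𝒪) := by
  apply MvPolynomial.ringHom_ext
  · intro a
    simp only [RingHom.comp_apply, RingHom.coe_coe]
    rw [← MvPolynomial.algebraMap_eq, AlgHom.commutes, AlgHom.commutes]
    exact (ResidueField.map_residue _ _).symm
  · rintro ⟨σ, a, b⟩
    simp only [RingHom.comp_apply, RingHom.coe_coe, evk, evA_X]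
    have := h σ a b
    rw [← residue_eq_zero_iff, map_sub, sub_eq_zero] at this
    rw [this, ← D.hrt σ a b]
    exact (ResidueField.map_residue _ _).symm

theorem evA_mem_maximalIdeal_iff [IsLocalHom (algebraMap 𝒪 A)]
    {r : GQ → Matrix (Fin 2) (Fin 2) A} (h : LiftsMod D r) (f : Lam 𝒪) :
    evA 𝒪 r f ∈ maximalIdeal A ↔ f ∈ Mid D := by
  have := congrArg (fun φ : Lam 𝒪 →+* ResidueField A => φ f) (residue_comp_evA h)
  simp only [RingHom.comp_apply, RingHom.coe_coe] at this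
  rw [← residue_eq_zero_iff, this, Mid, RingHom.mem_ker, map_eq_zero]

theorem ker_evA_le_Mid [IsLocalHom (algebraMap 𝒪 A)]
    {r : GQ → Matrix (Fin 2) (Fin 2) A} (h : LiftsMod D r) :
    RingHom.ker (evA 𝒪 r : Lam 𝒪 →ₐ[𝒪] A) ≤ Mid D := by
  intro f hf
  rw [← evA_mem_maximalIdeal_iff h, RingHom.mem_ker.mp hf]
  exact Ideal.zero_mem _

theorem Mid_pow_le_ker_evA [IsLocalHom (algebraMap 𝒪 A)]
    {r : GQ → Matrix (Fin 2) (Fin 2) A} (h : LiftsMod D r) {n : ℕ}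
    (hn : maximalIdeal A ^ n = ⊥) :
    Mid D ^ n ≤ RingHom.ker (evA 𝒪 r : Lam 𝒪 →ₐ[𝒪] A) := by
  have h1 : (Mid D).map (evA 𝒪 r : Lam 𝒪 →+* A) ≤ maximalIdeal A := by
    rw [Ideal.map_le_iff_le_comap]
    intro f hf
    exact (evA_mem_maximalIdeal_iff h f).mpr hf
  intro f hf
  rw [RingHom.mem_ker]
  have : (evA 𝒪 r : Lam 𝒪 →+* A) f ∈ ((Mid D) ^ n).map (evA 𝒪 r : Lam 𝒪 →+* A) :=
    Ideal.mem_map_of_mem _ hf
  rw [Ideal.map_pow] at this
  have := Ideal.pow_right_mono h1 n this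
  rwa [hn, Ideal.mem_bot] at this

end Eval

section TestQuot

variable {𝒪 : Type} [CommRing 𝒪] [IsLocalRing 𝒪] (D : Datum 𝒪)

/-- Finite quotients of `Lam 𝒪` by ideals between a power of `Mid D` and `Mid D` are Artinian
test algebras. -/
theorem isArtinianTestAlgebra_quot {I : Ideal (Lam 𝒪)} {n : ℕ}
    (hn : Mid D ^ n ≤ I) [Finite (Lam 𝒪 ⧸ I)] [IsLocalRing (Lam 𝒪 ⧸ I)] :
    IsArtinianTestAlgebra 𝒪 (Lam 𝒪 ⧸ I) := by
  apply isArtinianTestAlgebra_of_finite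
  · refine ⟨fun a ha => ?_⟩
    by_contra hna
    have h1 : a ∈ maximalIdeal 𝒪 := (mem_maximalIdeal a).mpr hna
    have h2 : algebraMap 𝒪 (Lam 𝒪) a ∈ Mid D := (algebraMap_mem_Mid_iff D a).mpr h1
    have h3 : Ideal.Quotient.mk I (algebraMap 𝒪 (Lam 𝒪) a) ∈ maximalIdeal (Lam 𝒪 ⧸ I) :=
      (mk_mem_maximalIdeal_iff (Mid D) hn _).mpr h2
    exact ((mem_maximalIdeal _).mp h3) ha
  · intro y
    obtain ⟨z, rfl⟩ := residue_surjective y
    obtain ⟨f, rfl⟩ := Ideal.Quotient.mk_surjective z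
    obtain ⟨a, ha⟩ := exists_sub_algebraMap_mem_Mid D f
    refine ⟨a, ?_⟩
    have h3 : Ideal.Quotient.mk I (f - algebraMap 𝒪 (Lam 𝒪) a) ∈ maximalIdeal (Lam 𝒪 ⧸ I) :=
      (mk_mem_maximalIdeal_iff (Mid D) hn _).mpr ha
    rw [← residue_eq_zero_iff, map_sub, map_sub, sub_eq_zero] at h3
    exact h3.symm

end TestQuot

section MatMap

variable {A B C : Type} [CommRing A] [CommRing B] [CommRing C]

theorem matrix_map_injective (φ : A →+* B) (hφ : Function.Injective φ) :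
    Function.Injective (fun M : Matrix (Fin 2) (Fin 2) A => M.map φ) := by
  intro M N h
  ext a b
  exact hφ (by simpa [Matrix.map_apply] using congrFun (congrFun h a) b)

theorem matrix_map_injective₂ (φ : A →+* B) (ψ : A →+* C)
    (h : Function.Injective (fun x : A => (φ x, ψ x))) :
    Function.Injective (fun M : Matrix (Fin 2) (Fin 2) A => (M.map φ, M.map ψ)) := by
  intro M N hMN
  ext a b
  apply h
  have h1 := congrFun (congrFun (congrArg Prod.fst hMN) a) b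
  have h2 := congrFun (congrFun (congrArg Prod.snd hMN) a) b
  simp only [Matrix.map_apply] at h1 h2
  exact Prod.ext h1 h2

/-- Bundle a multiplicative function as a monoid hom. -/
def mkHom (t : GQ → Matrix (Fin 2) (Fin 2) A) (h1 : t 1 = 1)
    (hmul : ∀ σ τ, t (σ * τ) = t σ * t τ) : GQ →* Matrix (Fin 2) (Fin 2) A :=
  ⟨⟨t, h1⟩, hmul⟩

@[simp] theorem mkHom_apply (t : GQ → Matrix (Fin 2) (Fin 2) A) (h1 : t 1 = 1)
    (hmul : ∀ σ τ, t (σ * τ) = t σ * t τ) (σ : GQ) : mkHom t h1 hmul σ = t σ := rfl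

end MatMap

section Family

variable {𝒪 : Type} [CommRing 𝒪] [IsLocalRing 𝒪] (D : Datum 𝒪)
  (𝒟 : ∀ ⦃A : Type⦄ [CommRing A] [IsLocalRing A] [Algebra 𝒪 A], GaloisRepAdic A → Prop)

/-- The tautological matrix valued function over a quotient of `Lam 𝒪`. -/
def taut (I : Ideal (Lam 𝒪)) (σ : GQ) : Matrix (Fin 2) (Fin 2) (Lam 𝒪 ⧸ I) :=
  Matrix.of fun a b => Ideal.Quotient.mk I (MvPolynomial.X (σ, a, b))

@[simp] theorem taut_apply (I : Ideal (Lam 𝒪)) (σ : GQ) (a b : Fin 2) :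
    taut I σ a b = Ideal.Quotient.mk I (MvPolynomial.X (σ, a, b)) := rfl

theorem evA_taut (I : Ideal (Lam 𝒪)) (f : Lam 𝒪) :
    evA 𝒪 (taut I) f = Ideal.Quotient.mk I f := by
  have : (evA 𝒪 (taut I) : Lam 𝒪 →ₐ[𝒪] Lam 𝒪 ⧸ I) = Ideal.Quotient.mkₐ 𝒪 I := by
    apply MvPolynomial.algHom_ext
    rintro ⟨σ, a, b⟩
    simp
  rw [this]; rfl

/-- The family of ideals of `Lam 𝒪` over which the tautological map is a rigid lift. -/
def Family : Set (Ideal (Lam 𝒪)) :=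
  {I | I ≤ Mid D ∧ (∃ n, Mid D ^ n ≤ I) ∧ Finite (Lam 𝒪 ⧸ I) ∧
    ∃ (_ : IsLocalRing (Lam 𝒪 ⧸ I)) (r : GQ →* Matrix (Fin 2) (Fin 2) (Lam 𝒪 ⧸ I)),
      (∀ σ, r σ = taut I σ) ∧ IsRigidLift D 𝒟 r}

variable {D 𝒟}

/-- Key lemma: the kernel of the evaluation at a rigid lift over a test algebra is in the
family. -/
theorem ker_evA_mem_Family [Finite (ResidueField 𝒪)] (h𝒟 : IsDeformationCondition 𝒪 𝒟)
    {A : Type} [CommRing A] [IsLocalRing A] [Algebra 𝒪 A]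
    (hA : IsArtinianTestAlgebra 𝒪 A) {r : GQ →* Matrix (Fin 2) (Fin 2) A}
    (hr : IsRigidLift D 𝒟 r) :
    RingHom.ker (evA 𝒪 (fun σ => r σ) : Lam 𝒪 →ₐ[𝒪] A) ∈ Family D 𝒟 := by
  haveI := hA.isLocalHom
  set ev : Lam 𝒪 →ₐ[𝒪] A := evA 𝒪 (fun σ => r σ) with hev
  set I := RingHom.ker ev with hIdef
  have hI : I ≤ Mid D := ker_evA_le_Mid hr.lifts
  obtain ⟨n, hn⟩ := exists_maximalIdeal_pow_eq_bot hA
  have hIn : Mid D ^ n ≤ I := Mid_pow_le_ker_evA hr.lifts hn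
  haveI : Finite A := finite_of_isArtinianTestAlgebra hA
  let φ : Lam 𝒪 ⧸ I →ₐ[𝒪] A := Ideal.kerLiftAlg ev
  have hφmk : ∀ f, φ (Ideal.Quotient.mk I f) = ev f := fun f => Ideal.kerLiftAlg_mk ev f
  have hinj : Function.Injective φ := Ideal.kerLiftAlg_injective ev
  haveI : Finite (Lam 𝒪 ⧸ I) := Finite.of_injective φ hinj
  haveI hloc : IsLocalRing (Lam 𝒪 ⧸ I) := isLocalRing_quotient_of_pow_le (Mid D) hI hIn
  have hT : IsArtinianTestAlgebra 𝒪 (Lam 𝒪 ⧸ I) := isArtinianTestAlgebra_quot D hIn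
  have hφloc : IsLocalHom (φ : Lam 𝒪 ⧸ I →+* A) := by
    refine ⟨fun x hx => ?_⟩
    obtain ⟨f, rfl⟩ := Ideal.Quotient.mk_surjective x
    by_contra hnu
    have h1 : Ideal.Quotient.mk I f ∈ maximalIdeal (Lam 𝒪 ⧸ I) := (mem_maximalIdeal _).mpr hnu
    have h2 : f ∈ Mid D := (mk_mem_maximalIdeal_iff (Mid D) hIn f).mp h1
    have h3 : ev f ∈ maximalIdeal A := (evA_mem_maximalIdeal_iff hr.lifts f).mpr h2
    have h4 : IsUnit (ev f) := by
      have : (φ : Lam 𝒪 ⧸ I →+* A) (Ideal.Quotient.mk I f) = ev f := hφmk f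
      rw [← this]; exact hx
    exact ((mem_maximalIdeal _).mp h3) h4
  have hmap : ∀ σ, (taut I σ).map φ = r σ := by
    intro σ
    ext a b
    rw [Matrix.map_apply, taut_apply, hφmk, hev, evA_X]
  have hMinj := matrix_map_injective (φ : Lam 𝒪 ⧸ I →+* A) hinj
  let t : GQ →* Matrix (Fin 2) (Fin 2) (Lam 𝒪 ⧸ I) := mkHom (taut I)
    (hMinj (by
      show (taut I 1).map φ = (1 : Matrix (Fin 2) (Fin 2) (Lam 𝒪 ⧸ I)).map φ
      rw [hmap, map_one, Matrix.map_one φ (map_zero φ) (map_one φ)]))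
    (fun σ τ => hMinj (by
      show (taut I (σ * τ)).map φ = (taut I σ * taut I τ).map φ
      rw [Matrix.map_mul, hmap, hmap, hmap, map_mul]))
  have ht : mapMat (φ : Lam 𝒪 ⧸ I →+* A) t = r := MonoidHom.ext fun σ => hmap σ
  refine ⟨hI, ⟨n, hIn⟩, inferInstance, hloc, t, fun σ => rfl, ?_⟩
  exact IsRigidLift.of_map_injective h𝒟 hT hA φ hφloc hinj (by rw [ht]; exact hr)

theorem Family.le {I : Ideal (Lam 𝒪)} (h : I ∈ Family D 𝒟) : I ≤ Mid D := h.1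

theorem Family.pow_le {I : Ideal (Lam 𝒪)} (h : I ∈ Family D 𝒟) : ∃ n, Mid D ^ n ≤ I := h.2.1

theorem Family.finite {I : Ideal (Lam 𝒪)} (h : I ∈ Family D 𝒟) : Finite (Lam 𝒪 ⧸ I) := h.2.2.1

/-- Upward closure (within `Mid D`). -/
theorem Family.mem_of_le [Finite (ResidueField 𝒪)] (h𝒟 : IsDeformationCondition 𝒪 𝒟)
    {I J : Ideal (Lam 𝒪)} (hI : I ∈ Family D 𝒟) (hIJ : I ≤ J) (hJ : J ≤ Mid D) :
    J ∈ Family D 𝒟 := by
  obtain ⟨hIM, ⟨n, hn⟩, hfin, hloc, r, hr, hrig⟩ := hI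
  haveI := hfin
  haveI := hloc
  have hnJ : Mid D ^ n ≤ J := hn.trans hIJ
  haveI : IsLocalRing (Lam 𝒪 ⧸ J) := isLocalRing_quotient_of_pow_le (Mid D) hJ hnJ
  let φ : Lam 𝒪 ⧸ I →ₐ[𝒪] Lam 𝒪 ⧸ J := Ideal.Quotient.factorₐ 𝒪 hIJ
  have hφs : Function.Surjective φ := Ideal.Quotient.factor_surjective hIJ
  haveI : Finite (Lam 𝒪 ⧸ J) := Finite.of_surjective φ hφs
  have hTI : IsArtinianTestAlgebra 𝒪 (Lam 𝒪 ⧸ I) := isArtinianTestAlgebra_quot D hn
  have hTJ : IsArtinianTestAlgebra 𝒪 (Lam 𝒪 ⧸ J) := isArtinianTestAlgebra_quot D hnJ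
  have hφloc : IsLocalHom (φ : Lam 𝒪 ⧸ I →+* Lam 𝒪 ⧸ J) :=
    IsLocalHom.of_surjective _ hφs
  have hrJ : IsRigidLift D 𝒟 (mapMat (φ : Lam 𝒪 ⧸ I →+* Lam 𝒪 ⧸ J) r) :=
    hrig.map h𝒟 hTI hTJ φ hφloc
  have hfun : (fun σ => mapMat (φ : Lam 𝒪 ⧸ I →+* Lam 𝒪 ⧸ J) r σ) = taut J := by
    funext σ
    ext a b
    rw [mapMat_apply, Matrix.map_apply, hr σ, taut_apply, taut_apply]
    rfl
  have hker : RingHom.ker (evA 𝒪 (fun σ => mapMat (φ : Lam 𝒪 ⧸ I →+* Lam 𝒪 ⧸ J) r σ) :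
      Lam 𝒪 →ₐ[𝒪] Lam 𝒪 ⧸ J) = J := by
    rw [hfun]
    ext f
    rw [RingHom.mem_ker, evA_taut, Ideal.Quotient.eq_zero_iff_mem]
  have := ker_evA_mem_Family h𝒟 hTJ hrJ
  rwa [hker] at this

/-- Closure under binary intersections. -/
theorem Family.inf_mem [Finite (ResidueField 𝒪)] (h𝒟 : IsDeformationCondition 𝒪 𝒟)
    {I J : Ideal (Lam 𝒪)} (hI : I ∈ Family D 𝒟) (hJ : J ∈ Family D 𝒟) :
    I ⊓ J ∈ Family D 𝒟 := by
  obtain ⟨hIM, ⟨n, hn⟩, hfinI, hlocI, rI, hrI, hrigI⟩ := hI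
  obtain ⟨hJM, ⟨m, hm⟩, hfinJ, hlocJ, rJ, hrJ, hrigJ⟩ := hJ
  haveI := hfinI
  haveI := hlocI
  haveI := hfinJ
  haveI := hlocJ
  have hPM : I ⊓ J ≤ Mid D := inf_le_left.trans hIM
  have hnP : Mid D ^ (max n m) ≤ I ⊓ J :=
    le_inf ((Ideal.pow_le_pow_right (le_max_left n m)).trans hn)
      ((Ideal.pow_le_pow_right (le_max_right n m)).trans hm)
  have hCM : I ⊔ J ≤ Mid D := sup_le hIM hJM
  have hnC : Mid D ^ n ≤ I ⊔ J := hn.trans le_sup_left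
  haveI : IsLocalRing (Lam 𝒪 ⧸ (I ⊓ J)) := isLocalRing_quotient_of_pow_le (Mid D) hPM hnP
  haveI : IsLocalRing (Lam 𝒪 ⧸ (I ⊔ J)) := isLocalRing_quotient_of_pow_le (Mid D) hCM hnC
  let pA : Lam 𝒪 ⧸ (I ⊓ J) →ₐ[𝒪] Lam 𝒪 ⧸ I := fpA I J
  let pB : Lam 𝒪 ⧸ (I ⊓ J) →ₐ[𝒪] Lam 𝒪 ⧸ J := fpB I J
  let f : Lam 𝒪 ⧸ I →ₐ[𝒪] Lam 𝒪 ⧸ (I ⊔ J) := fpF I J
  let g : Lam 𝒪 ⧸ J →ₐ[𝒪] Lam 𝒪 ⧸ (I ⊔ J) := fpG I J
  have hinj : Function.Injective (fun x => (pA x, pB x)) := fp_injective I J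
  haveI : Finite (Lam 𝒪 ⧸ (I ⊓ J)) := Finite.of_injective _ hinj
  have hfs : Function.Surjective f := Ideal.Quotient.factor_surjective le_sup_left
  haveI : Finite (Lam 𝒪 ⧸ (I ⊔ J)) := Finite.of_surjective f hfs
  have hTA : IsArtinianTestAlgebra 𝒪 (Lam 𝒪 ⧸ I) := isArtinianTestAlgebra_quot D hn
  have hTB : IsArtinianTestAlgebra 𝒪 (Lam 𝒪 ⧸ J) := isArtinianTestAlgebra_quot D hm
  have hTC : IsArtinianTestAlgebra 𝒪 (Lam 𝒪 ⧸ (I ⊔ J)) := isArtinianTestAlgebra_quot D hnC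
  have hTP : IsArtinianTestAlgebra 𝒪 (Lam 𝒪 ⧸ (I ⊓ J)) := isArtinianTestAlgebra_quot D hnP
  have hpAloc : IsLocalHom (pA : Lam 𝒪 ⧸ (I ⊓ J) →+* Lam 𝒪 ⧸ I) :=
    IsLocalHom.of_surjective _ (Ideal.Quotient.factor_surjective inf_le_left)
  have hpBloc : IsLocalHom (pB : Lam 𝒪 ⧸ (I ⊓ J) →+* Lam 𝒪 ⧸ J) :=
    IsLocalHom.of_surjective _ (Ideal.Quotient.factor_surjective inf_le_right)
  have hmapA : ∀ σ, (taut (I ⊓ J) σ).map pA = rI σ := by
    intro σ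
    ext a b
    rw [Matrix.map_apply, hrI σ, taut_apply, taut_apply]
    rfl
  have hmapB : ∀ σ, (taut (I ⊓ J) σ).map pB = rJ σ := by
    intro σ
    ext a b
    rw [Matrix.map_apply, hrJ σ, taut_apply, taut_apply]
    rfl
  have hMinj := matrix_map_injective₂ (pA : Lam 𝒪 ⧸ (I ⊓ J) →+* Lam 𝒪 ⧸ I)
    (pB : Lam 𝒪 ⧸ (I ⊓ J) →+* Lam 𝒪 ⧸ J) hinj
  let t : GQ →* Matrix (Fin 2) (Fin 2) (Lam 𝒪 ⧸ (I ⊓ J)) := mkHom (taut (I ⊓ J))
    (hMinj (by
      show ((taut (I ⊓ J) 1).map pA, (taut (I ⊓ J) 1).map pB)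
        = ((1 : Matrix (Fin 2) (Fin 2) (Lam 𝒪 ⧸ (I ⊓ J))).map pA,
           (1 : Matrix (Fin 2) (Fin 2) (Lam 𝒪 ⧸ (I ⊓ J))).map pB)
      rw [hmapA, hmapB, map_one, map_one, Matrix.map_one pA (map_zero pA) (map_one pA),
        Matrix.map_one pB (map_zero pB) (map_one pB)]))
    (fun σ τ => hMinj (by
      show ((taut (I ⊓ J) (σ * τ)).map pA, (taut (I ⊓ J) (σ * τ)).map pB)
        = ((taut (I ⊓ J) σ * taut (I ⊓ J) τ).map pA, (taut (I ⊓ J) σ * taut (I ⊓ J) τ).map pB)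
      rw [Matrix.map_mul, Matrix.map_mul, hmapA, hmapA, hmapA, hmapB, hmapB, hmapB, map_mul,
        map_mul]))
  have htA : mapMat (pA : Lam 𝒪 ⧸ (I ⊓ J) →+* Lam 𝒪 ⧸ I) t = rI :=
    MonoidHom.ext fun σ => hmapA σ
  have htB : mapMat (pB : Lam 𝒪 ⧸ (I ⊓ J) →+* Lam 𝒪 ⧸ J) t = rJ :=
    MonoidHom.ext fun σ => hmapB σ
  refine ⟨hPM, ⟨_, hnP⟩, inferInstance, inferInstance, t, fun σ => rfl, ?_⟩
  exact IsRigidLift.of_fibreProduct h𝒟 hTA hTB hTC hTP f g pA pB hpAloc hpBloc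
    (fp_comp_eq I J) hinj (fp_glue I J) (by rw [htA]; exact hrigI) (by rw [htB]; exact hrigJ)

theorem matCont_of_resCont {k : Type} [Field k] {r : GQ →* Matrix (Fin 2) (Fin 2) k}
    (h : ResCont r) : MatCont r := by
  obtain ⟨L, hL, hσ⟩ := h
  intro n
  refine ⟨L, hL, fun σ hfix a b => ?_⟩
  rw [hσ σ hfix, sub_self]
  exact Ideal.zero_mem _

theorem isArtinianTestAlgebra_residueField :
    IsArtinianTestAlgebra 𝒪 (ResidueField 𝒪) := by
  refine ⟨?_, ?_, inferInstance⟩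
  · rw [ResidueField.algebraMap_eq]; infer_instance
  · intro y
    obtain ⟨z, rfl⟩ := residue_surjective y
    obtain ⟨a, rfl⟩ := residue_surjective z
    exact ⟨a, rfl⟩

/-- The residual matrices form a rigid lift over the residue field, provided they are of
type `𝒟`. -/
theorem isRigidLift_rbar (hbar : 𝒟 (ofMat D.rbar (matCont_of_resCont D.hrbar))) :
    IsRigidLift D 𝒟 D.rbar where
  lifts := by
    intro σ a b
    have : D.rbar σ a b - algebraMap 𝒪 (ResidueField 𝒪) (D.rt σ a b) = 0 := by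
      rw [ResidueField.algebraMap_eq, D.hrt, sub_self]
    rw [this]
    exact Ideal.zero_mem _
  cont := matCont_of_resCont D.hrbar
  norm := ⟨D.h00, D.h10, by rw [ResidueField.algebraMap_eq, D.hrt]⟩
  type := hbar

theorem Family.max_mem [Finite (ResidueField 𝒪)] (h𝒟 : IsDeformationCondition 𝒪 𝒟)
    (hbar : 𝒟 (ofMat D.rbar (matCont_of_resCont D.hrbar))) : Mid D ∈ Family D 𝒟 :=
  ker_evA_mem_Family h𝒟 isArtinianTestAlgebra_residueField (isRigidLift_rbar hbar)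

end Family

end Fermat.Agent.S53_helper96
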