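import Fermat.Agent.S53_helper96.Admissible
import Fermat.Agent.S53_helper96.RigidData
import Fermat.Agent.S53_helper61.UnivRep
import Fermat.Agent.S53_helper36.Universal

/-!
# S53, rigid route: the family specific input of the final assembly

* `exists_datum`: a rigidification datum from an absolutely irreducible residual representation;
* `RigidFrameworkL`: the abstract rigidification framework (with the local-hom hypothesis in
  `exists_conj`), and its instance `rigidFramework D` for a datum;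
* `nonempty_deformationRingData_of_rigid_universalL`: O6 for this framework;
* `goodLevel_of_mem_Family`, `ker_mem_Family_of_rig`, `univ_liftsMod`, `univ_isNormalised`.
-/

set_option autoImplicit false
set_option linter.unusedSectionVars false
set_option linter.style.haveILetI false

noncomputable section

namespace Fermat.Agent.S53_helper96

open Fermat.Agent.S53_helper35 Fermat.Agent.S53_helper84 IsLocalRing GaloisRep

section Datum

variable {𝒪 : Type} [CommRing 𝒪] [IsLocalRing 𝒪]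

/-- A rigidification datum attached to an absolutely irreducible residual representation. -/
theorem exists_datum (ρbar : ResidualGaloisRep (ResidueField 𝒪))
    (habs : ρbar.IsAbsolutelyIrreducible) :
    ∃ (b : Module.Basis (Fin 2) (ResidueField 𝒪) ρbar.V) (D : Datum 𝒪),
      D.rbar = toMatRes ρbar b := by
  obtain ⟨b, g0, g1, i, j, h00, h10, hc⟩ :=
    exists_rigid_data (AlgebraicClosure (ResidueField 𝒪)) ρbar.finrank_eq ρbar.ρ habs
  refine ⟨b, { rbar := toMatRes ρbar b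
               hrbar := resCont_toMatRes ρbar b
               rt := fun σ => Matrix.of fun a c =>
                 Function.surjInv residue_surjective (toMatRes ρbar b σ a c)
               hrt := fun σ a c => Function.surjInv_eq residue_surjective _
               g0 := g0
               g1 := g1
               i := i
               j := j
               h00 := h00
               h10 := h10
               hcomm := hc }, rfl⟩

/-- The adic representation attached to the residual representation is equivalent to the one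
given by its matrices. -/
theorem ofResidualGaloisRep_isEquiv_ofMat {k : Type} [Field k] (ρbar : ResidualGaloisRep k)
    (b : Module.Basis (Fin 2) k ρbar.V) :
    (GaloisRepAdic.ofResidualGaloisRep ρbar).IsEquiv
      (ofMat (toMatRes ρbar b) (matCont_of_resCont (resCont_toMatRes ρbar b))) :=
  ⟨equivOfMatToMat (GaloisRepAdic.ofResidualGaloisRep ρbar) b⟩

end Datum


section Framework

open Fermat.Agent.S53_helper36

/-- An abstract rigidification relative to `rbar`: a predicate `Rig` on matrix families such that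
conjugate rigid families are equal and every lift of `rbar` over a complete local ring can be
conjugated (by a matrix congruent to a scalar) into a rigid one. -/
structure RigidFrameworkL (𝒪 : Type) [CommRing 𝒪] [IsLocalRing 𝒪]
    (rbar : GQ → Matrix (Fin 2) (Fin 2) (ResidueField 𝒪)) where
  /-- the normal form predicate -/
  Rig : ∀ ⦃A : Type⦄ [CommRing A] [IsLocalRing A] [Algebra 𝒪 A],
    (GQ → Matrix (Fin 2) (Fin 2) A) → Prop
  map : ∀ ⦃A B : Type⦄ [CommRing A] [IsLocalRing A] [Algebra 𝒪 A]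
    [CommRing B] [IsLocalRing B] [Algebra 𝒪 B] (φ : A →ₐ[𝒪] B), IsLocalHom (φ : A →+* B) →
    ∀ ⦃r : GQ → Matrix (Fin 2) (Fin 2) A⦄, Rig r → Rig (fun g => (r g).map φ)
  eq_of_conj : ∀ ⦃A : Type⦄ [CommRing A] [IsLocalRing A] [Algebra 𝒪 A]
    ⦃r r' : GQ → Matrix (Fin 2) (Fin 2) A⦄, Rig r → Rig r' →
    ∀ M : Matrix (Fin 2) (Fin 2) A, IsUnit M.det → (∀ g, M * r g = r' g * M) → r = r'
  exists_conj : ∀ ⦃A : Type⦄ [CommRing A] [IsLocalRing A] [Algebra 𝒪 A]
    [IsAdicComplete (maximalIdeal A) A] [IsLocalHom (algebraMap 𝒪 A)]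
    (r : GQ → Matrix (Fin 2) (Fin 2) A), LiftsRes 𝒪 rbar r →
    ∃ M N : Matrix (Fin 2) (Fin 2) A, M * N = 1 ∧ N * M = 1 ∧
      (∀ g i j, (M * r g * N) i j - r g i j ∈ maximalIdeal A) ∧ Rig (fun g => M * r g * N)


variable {𝒪 : Type} [CommRing 𝒪] [IsLocalRing 𝒪] (D : Datum 𝒪)

/-- `LiftsRes` (existential witnesses) implies `LiftsMod` (the fixed lift) when the structure map
is local. -/
theorem liftsMod_of_liftsRes {A : Type} [CommRing A] [IsLocalRing A] [Algebra 𝒪 A]
    [IsLocalHom (algebraMap 𝒪 A)] {r : GQ → Matrix (Fin 2) (Fin 2) A}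
    (h : LiftsRes 𝒪 (fun g => D.rbar g) r) : LiftsMod D r := by
  intro σ a c
  obtain ⟨o, ho, hmem⟩ := h σ a c
  have h1 : o - D.rt σ a c ∈ maximalIdeal 𝒪 := by
    rw [← residue_eq_zero_iff, map_sub, ho, D.hrt, sub_self]
  have h2 : algebraMap 𝒪 A (o - D.rt σ a c) ∈ maximalIdeal A :=
    map_nonunit (algebraMap 𝒪 A) _ h1
  have := (maximalIdeal A).add_mem hmem h2
  rwa [map_sub, sub_add_sub_cancel] at this

theorem liftsRes_of_liftsMod {A : Type} [CommRing A] [IsLocalRing A] [Algebra 𝒪 A]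
    {r : GQ → Matrix (Fin 2) (Fin 2) A} (h : LiftsMod D r) :
    LiftsRes 𝒪 (fun g => D.rbar g) r :=
  fun σ a c => ⟨D.rt σ a c, D.hrt σ a c, h σ a c⟩

/-- Residues of the entries of a lift. -/
theorem LiftsMod.residue_apply {A : Type} [CommRing A] [IsLocalRing A] [Algebra 𝒪 A]
    [IsLocalHom (algebraMap 𝒪 A)] {r : GQ → Matrix (Fin 2) (Fin 2) A} (h : LiftsMod D r)
    (σ : GQ) (a c : Fin 2) :
    residue A (r σ a c) = ResidueField.map (algebraMap 𝒪 A) (D.rbar σ a c) := by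
  have := h σ a c
  rw [← residue_eq_zero_iff, map_sub, sub_eq_zero] at this
  rw [this, ← D.hrt, ResidueField.map_residue]

/-- The rigidification framework attached to a datum. -/
def rigidFramework : RigidFrameworkL 𝒪 (fun g => D.rbar g) where
  Rig := fun A _ _ _ r => LiftsMod D r ∧ IsNormalised D r
  map := fun A B _ _ _ _ _ _ φ hφ r h => ⟨h.1.map φ hφ, h.2.map φ⟩
  eq_of_conj := fun A _ _ _ r r' h h' M hM hc => eq_of_conj h.1 h'.1 h.2 h'.2 M hM hc
  exists_conj := by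
    intro A _ _ _ _ _ r hr
    have hl : LiftsMod D r := liftsMod_of_liftsRes D hr
    have hX0 : residue A (r D.g0 0 0) = 0 := by
      rw [hl.residue_apply, D.h00, map_zero]
    have hX1 : residue A (r D.g0 1 0) = 1 := by
      rw [hl.residue_apply, D.h10, map_one]
    have hc : residue A (r D.g1 D.i D.j) = residue A (algebraMap 𝒪 A (D.rt D.g1 D.i D.j)) := by
      have := hl D.g1 D.i D.j
      rwa [← residue_eq_zero_iff, map_sub, sub_eq_zero] at this
    have hu : residue A ((r D.g0 * r D.g1 - r D.g1 * r D.g0) D.i D.j) ≠ 0 := by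
      have h1 := hl.isUnit_comm hl
      intro h0
      rw [residue_eq_zero_iff] at h0
      have h2 : (r D.g1 * r D.g0 - r D.g0 * r D.g1) D.i D.j
          = -((r D.g0 * r D.g1 - r D.g1 * r D.g0) D.i D.j) := by
        rw [← Matrix.neg_apply, neg_sub]
      rw [h2] at h1
      exact ((mem_maximalIdeal _).mp h0) (IsUnit.neg_iff _ |>.mp h1)
    obtain ⟨P, Pi, h1, h2, h3, h4, h5, h6, h7⟩ :=
      exists_rigidify (r D.g0) (r D.g1) D.i D.j (algebraMap 𝒪 A (D.rt D.g1 D.i D.j))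
        hX0 hX1 hc hu
    have hcong : ∀ g a c, (P * r g * Pi) a c - r g a c ∈ maximalIdeal A := by
      intro g a c
      rw [← residue_eq_zero_iff, map_sub, sub_eq_zero, map_conj_apply _ h3 h4]
    refine ⟨P, Pi, h1, h2, hcong, ?_, ⟨h5, h6, h7⟩⟩
    intro σ a c
    have := (maximalIdeal A).add_mem (hcong σ a c) (hl σ a c)
    rwa [sub_add_sub_cancel] at this

end Framework

section Main

open Fermat.Agent.S53_helper36

variable (𝒪 : Type) [CommRing 𝒪] [IsDomain 𝒪] [IsDiscreteValuationRing 𝒪]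
  [IsAdicComplete (maximalIdeal 𝒪) 𝒪]
  (ρbar : ResidualGaloisRep (ResidueField 𝒪))
  (𝒟 : ∀ ⦃A : Type⦄ [CommRing A] [IsLocalRing A] [Algebra 𝒪 A], GaloisRepAdic A → Prop)

/-- **O6.** From a rigid pro-representing package to `DeformationRingData`. -/
theorem nonempty_deformationRingData_of_rigid_universalL
    (habs : ρbar.IsAbsolutelyIrreducible) (h𝒟 : GaloisRep.IsDeformationCondition 𝒪 𝒟)
    (b : Module.Basis (Fin 2) (ResidueField 𝒪) ρbar.V)
    (rbar : GQ →* Matrix (Fin 2) (Fin 2) (ResidueField 𝒪)) (hrb : rbar = toMatRes ρbar b)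
    (F : RigidFrameworkL 𝒪 (fun g => rbar g))
    (𝓘 : Set (Ideal (Lam 𝒪)))
    (hker : ∀ ⦃B : Type⦄ [CommRing B] [IsLocalRing B] [Algebra 𝒪 B],
      GaloisRep.IsArtinianTestAlgebra 𝒪 B →
      ∀ (r : GQ →* Matrix (Fin 2) (Fin 2) B) (hr : MatCont r),
        LiftsRes 𝒪 (fun g => rbar g) (fun g => r g) → F.Rig (fun g => r g) →
        𝒟 (ofMat r hr) → RingHom.ker (evalHom 𝒪 (fun g => r g)) ∈ 𝓘)
    (R : Type) [CommRing R] [IsLocalRing R] [IsNoetherianRing R]
    [IsAdicComplete (maximalIdeal R) R] [Algebra 𝒪 R] [IsLocalHom (algebraMap 𝒪 R)]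
    (hRres : Function.Surjective (residue R ∘ algebraMap 𝒪 R))
    (u : Lam 𝒪 →ₐ[𝒪] R)
    (hdense : ∀ n, Function.Surjective ((Ideal.Quotient.mkₐ 𝒪 (maximalIdeal R ^ n)).comp u))
    (hmap : ∀ (A : Type) [CommRing A] [IsLocalRing A] [IsNoetherianRing A]
      [IsAdicComplete (maximalIdeal A) A] [Algebra 𝒪 A] [IsLocalHom (algebraMap 𝒪 A)],
      Function.Surjective (residue A ∘ algebraMap 𝒪 A) → ∀ (φ : Lam 𝒪 →ₐ[𝒪] A),
      (∀ n, 1 ≤ n →
        RingHom.ker ((Ideal.Quotient.mkₐ 𝒪 (maximalIdeal A ^ n)).comp φ) ∈ 𝓘) →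
      ∃ ψ : R →ₐ[𝒪] A, ψ.comp u = φ)
    (runiv : GQ →* Matrix (Fin 2) (Fin 2) R)
    (hruniv : ∀ g i j, runiv g i j = u (MvPolynomial.X (g, i, j)))
    (hcont : MatCont runiv)
    (hlift : LiftsRes 𝒪 (fun g => rbar g) (fun g => runiv g))
    (hrig : F.Rig (fun g => runiv g)) (hD : 𝒟 (ofMat runiv hcont)) :
    Nonempty (GaloisRep.DeformationRingData 𝒪 ρbar 𝒟) := by
  subst hrb
  classical
  have hrbar : ResCont (toMatRes ρbar b) := resCont_toMatRes ρbar b
  refine ⟨{ R := R, residue_surjective := hRres, absIrr := habs, ρ := ofMat runiv hcont,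
            isOfType := hD, residual_isEquiv := ?_, universal := ?_ }⟩
  · -- the residual representation
    have h1 : mapMat (residue R) runiv = mapMat (ResidueField.map (algebraMap 𝒪 R)) (toMatRes ρbar b) := by
      refine MonoidHom.ext fun g => ?_
      exact (liftsRes_iff 𝒪 _ _).1 hlift g
    obtain ⟨e1⟩ := residual_ofMat_isEquiv_of_eq runiv hcont (toMatRes ρbar b) hrbar _ h1
    obtain ⟨e2⟩ := baseChangeAlong_isEquiv_ofMatRes (ResidueField.map (algebraMap 𝒪 R)) ρbar b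
    exact ⟨e1.trans e2.symm⟩
  · intro A _ _ _ _ _ _ hAres ρA hDA hresA
    set ι := ResidueField.map (algebraMap 𝒪 A) with hι
    -- matrix form of `ρA`
    have hresA' : ρA.residual.IsEquiv (ofMatRes (mapMat ι (toMatRes ρbar b)) (resCont_mapMat ι hrbar)) := by
      obtain ⟨e1⟩ := hresA
      obtain ⟨e2⟩ := baseChangeAlong_isEquiv_ofMatRes ι ρbar b
      exact ⟨e1.trans e2⟩
    obtain ⟨r0, hr0, hρ0, hres0⟩ := exists_ofMat_isEquiv_of_residual ρA (toMatRes ρbar b) hrbar ι hresA'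
    have hlift0 : LiftsRes 𝒪 (fun g => toMatRes ρbar b g) (fun g => r0 g) :=
      (liftsRes_iff 𝒪 _ _).2 fun g => DFunLike.congr_fun hres0 g
    obtain ⟨M, N, hMN, hNM, hcong, hrigMN⟩ := F.exists_conj (fun g => r0 g) hlift0
    let P : GL (Fin 2) A := ⟨M, N, hMN, hNM⟩
    set r1 := conjMat P r0 with hr1_def
    have hr1 : MatCont r1 := matCont_conjMat P hr0
    have hrig1 : F.Rig (fun g => r1 g) := hrigMN
    have hlift1 : LiftsRes 𝒪 (fun g => toMatRes ρbar b g) (fun g => r1 g) := hlift0.of_sub_mem 𝒪 hcong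
    have hρ1 : ρA.IsEquiv (ofMat r1 hr1) :=
      adicIsEquiv_trans hρ0 (isEquiv_ofMat_conjMat P hr0)
    -- the classifying map
    obtain ⟨ψ, hψ⟩ := hmap A hAres (evalHom 𝒪 (fun g => r1 g)) (fun n hn => by
      have hloc : IsLocalRing (A ⧸ maximalIdeal A ^ n) := isLocalRing_quotient_pow n (by omega)
      have hB : GaloisRep.IsArtinianTestAlgebra 𝒪 (A ⧸ maximalIdeal A ^ n) :=
        isArtinianTestAlgebra_quotient_pow hAres n
      set q : A →ₐ[𝒪] A ⧸ maximalIdeal A ^ n := Ideal.Quotient.mkₐ 𝒪 (maximalIdeal A ^ n) with hq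
      have hqloc : IsLocalHom (q : A →+* A ⧸ maximalIdeal A ^ n) :=
        isLocalHom_quotient_mk (maximalIdeal A ^ n)
      have hqsurj : Function.Surjective q := Ideal.Quotient.mk_surjective
      rw [evalHom_comp]
      have hrB : MatCont (mapMat (q : A →+* A ⧸ maximalIdeal A ^ n) r1) :=
        matCont_mapMat _ hqloc hr1
      refine hker hB (mapMat (q : A →+* A ⧸ maximalIdeal A ^ n) r1) hrB
        (hlift1.map 𝒪 q hqloc) (F.map q hqloc hrig1) ?_
      have h1 : 𝒟 (ρA.baseChangeAlong (q : A →+* A ⧸ maximalIdeal A ^ n) hqloc) :=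
        (h𝒟.iff_forall_surjective inferInstance hAres ρA).1 hDA hB q hqloc hqsurj
      refine h𝒟.of_isEquiv hB ?_ h1
      exact adicIsEquiv_trans (adicIsEquiv_baseChangeAlong _ hqloc hρ1)
        (baseChangeAlong_ofMat_isEquiv _ hqloc r1 hr1))
    have hψloc : IsLocalHom (ψ : R →+* A) := isLocalHom_of_residue_surjective hAres ψ
    have hψr : mapMat (ψ : R →+* A) runiv = r1 := by
      refine MonoidHom.ext fun g => ?_
      ext i j
      rw [mapMat_apply, Matrix.map_apply, hruniv]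
      have := AlgHom.congr_fun hψ (MvPolynomial.X (g, i, j))
      rw [AlgHom.comp_apply, evalHom_X] at this
      exact this
    refine ⟨ψ, ⟨hψloc, ?_⟩, ?_⟩
    · refine adicIsEquiv_trans (baseChangeAlong_ofMat_isEquiv _ hψloc runiv hcont) ?_
      refine adicIsEquiv_trans (isEquiv_ofMat_of_eq _ hr1 hψr) (adicIsEquiv_symm hρ1)
    · rintro ψ' ⟨hψ'loc, hψ'⟩
      have hr2 : MatCont (mapMat (ψ' : R →+* A) runiv) := matCont_mapMat _ hψ'loc hcont
      have h2 : (ofMat (mapMat (ψ' : R →+* A) runiv) hr2).IsEquiv (ofMat r1 hr1) :=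
        adicIsEquiv_trans (adicIsEquiv_symm (baseChangeAlong_ofMat_isEquiv _ hψ'loc runiv hcont))
          (adicIsEquiv_trans hψ' hρ1)
      obtain ⟨Q, hQ⟩ := (ofMat_isEquiv_iff hr2 hr1).1 h2
      have hQdet : IsUnit (Q : Matrix (Fin 2) (Fin 2) A).det :=
        (Matrix.isUnit_iff_isUnit_det _).mp Q.isUnit
      have h3 : (fun g => mapMat (ψ' : R →+* A) runiv g) = fun g => r1 g :=
        F.eq_of_conj (F.map ψ' hψ'loc hrig) hrig1 Q hQdet hQ
      have h4 : ψ'.comp u = ψ.comp u := by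
        refine MvPolynomial.algHom_ext fun p => ?_
        obtain ⟨g, i, j⟩ := p
        have e1 := congrFun (congrFun (congrFun h3 g) i) j
        have e2 := congrFun (congrFun (DFunLike.congr_fun hψr g) i) j
        rw [mapMat_apply, Matrix.map_apply, hruniv] at e1 e2
        rw [AlgHom.comp_apply, AlgHom.comp_apply]
        exact e1.trans e2.symm
      exact algHom_ext_of_dense u hdense ψ' ψ hψ'loc hψloc h4


end Main

section Glue

open Fermat.Agent.S53_helper36 Fermat.Agent.S53.ProRep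

variable {𝒪 : Type} [CommRing 𝒪] [IsLocalRing 𝒪] {D : Datum 𝒪}
  {𝒟 : ∀ ⦃A : Type⦄ [CommRing A] [IsLocalRing A] [Algebra 𝒪 A], GaloisRepAdic A → Prop}

/-- `ker_mem` in the shape consumed by O6. -/
theorem ker_mem_Family_of_rig [Finite (ResidueField 𝒪)] (h𝒟 : IsDeformationCondition 𝒪 𝒟)
    {B : Type} [CommRing B] [IsLocalRing B] [Algebra 𝒪 B] (hB : IsArtinianTestAlgebra 𝒪 B)
    (r : GQ →* Matrix (Fin 2) (Fin 2) B) (hr : MatCont r)
    (hrig : (rigidFramework D).Rig (fun g => r g)) (hD : 𝒟 (ofMat r hr)) :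
    RingHom.ker (evalHom 𝒪 (fun g => r g)) ∈ Family D 𝒟 :=
  ker_evA_mem_Family h𝒟 hB ⟨hrig.1, hr, hrig.2, hD⟩

/-- Members of the family are good levels in the sense of `UnivRep`. -/
theorem goodLevel_of_mem_Family {I : Ideal (Lam 𝒪)} (h : I ∈ Family D 𝒟) :
    Fermat.Agent.S53_helper61.GoodLevel 𝒟 I := by
  obtain ⟨_, ⟨n, hn⟩, hfin, hloc, r, hr, hrig⟩ := h
  haveI := hfin
  haveI := hloc
  exact ⟨hloc, isArtinianTestAlgebra_quot D hn, r, hrig.cont,
    fun σ a c => by rw [hr]; rfl, hrig.type⟩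

variable {R : Type} [CommRing R] [IsLocalRing R] [Algebra 𝒪 R]

/-- An element of all the level kernels is killed by `u`. -/
theorem map_eq_zero_of_mem_levels [IsHausdorff (maximalIdeal R) R] (u : Lam 𝒪 →ₐ[𝒪] R)
    (p : Lam 𝒪)
    (h : ∀ n, 1 ≤ n → p ∈ RingHom.ker ((Ideal.Quotient.mkₐ 𝒪 (maximalIdeal R ^ n)).comp u)) :
    u p = 0 := by
  apply Fermat.Agent.S53_helper61.eq_zero_of_forall_mem_pow'
  intro n
  rcases Nat.eq_zero_or_pos n with hn | hn
  · rw [hn, pow_zero, Ideal.one_eq_top]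
    trivial
  · have h1 := h n hn
    rw [RingHom.mem_ker, AlgHom.comp_apply, Ideal.Quotient.mkₐ_eq_mk,
      Ideal.Quotient.eq_zero_iff_mem] at h1
    exact h1

/-- The universal matrices are normalised. -/
theorem univ_isNormalised [IsHausdorff (maximalIdeal R) R] (u : Lam 𝒪 →ₐ[𝒪] R)
    (hmem : ∀ n, 1 ≤ n →
      RingHom.ker ((Ideal.Quotient.mkₐ 𝒪 (maximalIdeal R ^ n)).comp u) ∈ Family D 𝒟)
    (r : GQ → Matrix (Fin 2) (Fin 2) R)
    (hr : ∀ σ a c, r σ a c = u (MvPolynomial.X (σ, a, c))) : IsNormalised D r := by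
  have key : ∀ (σ : GQ) (a c : Fin 2) (x : 𝒪),
      (∀ (I : Ideal (Lam 𝒪)) [IsLocalRing (Lam 𝒪 ⧸ I)]
        (t : GQ →* Matrix (Fin 2) (Fin 2) (Lam 𝒪 ⧸ I)), (∀ σ, t σ = taut I σ) →
        IsRigidLift D 𝒟 t → t σ a c = algebraMap 𝒪 (Lam 𝒪 ⧸ I) x) →
      r σ a c = algebraMap 𝒪 R x := by
    intro σ a c x hx
    rw [hr, ← sub_eq_zero, ← AlgHom.commutes u, ← map_sub]
    apply map_eq_zero_of_mem_levels
    intro n hn
    set I := RingHom.ker ((Ideal.Quotient.mkₐ 𝒪 (maximalIdeal R ^ n)).comp u) with hI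
    obtain ⟨_, _, _, hloc, t, ht, hrig⟩ := hmem n hn
    have h1 := hx I t ht hrig
    rw [ht, taut_apply] at h1
    have h2 : algebraMap 𝒪 (Lam 𝒪 ⧸ I) x
        = Ideal.Quotient.mk I (algebraMap 𝒪 (Lam 𝒪) x) := rfl
    rw [h2, Ideal.Quotient.eq] at h1
    exact h1
  refine ⟨?_, ?_, ?_⟩
  · rw [← map_zero (algebraMap 𝒪 R)]
    exact key _ _ _ _ fun I _ t _ hrig => by rw [hrig.norm.n00, map_zero]
  · rw [← map_one (algebraMap 𝒪 R)]
    exact key _ _ _ _ fun I _ t _ hrig => by rw [hrig.norm.n10, map_one]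
  · exact key _ _ _ _ fun I _ t _ hrig => hrig.norm.nij

/-- The universal matrices lift the residual ones. -/
theorem univ_liftsMod [IsLocalHom (algebraMap 𝒪 R)] (u : Lam 𝒪 →ₐ[𝒪] R)
    (hsurj1 : Function.Surjective ((Ideal.Quotient.mkₐ 𝒪 (maximalIdeal R ^ 1)).comp u))
    (hmem1 : RingHom.ker ((Ideal.Quotient.mkₐ 𝒪 (maximalIdeal R ^ 1)).comp u) ∈ Family D 𝒟)
    (r : GQ → Matrix (Fin 2) (Fin 2) R)
    (hr : ∀ σ a c, r σ a c = u (MvPolynomial.X (σ, a, c))) : LiftsMod D r := by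
  intro σ a c
  have hle : Fermat.Agent.S53_helper61.levelKer u 1 ≤
      RingHom.ker ((evk D : Lam 𝒪 →ₐ[𝒪] ResidueField 𝒪) : Lam 𝒪 →+* ResidueField 𝒪) :=
    fun x hx => Family.le hmem1 hx
  have h1 := Fermat.Agent.S53_helper61.residue_u_eq u hsurj1 (evk D) hle
    (MvPolynomial.X (σ, a, c))
  rw [← residue_eq_zero_iff, map_sub, sub_eq_zero, hr, h1]
  have h2 : evk D (MvPolynomial.X (σ, a, c)) = D.rbar σ a c := evA_X _ σ a c
  rw [h2, ← D.hrt, ResidueField.map_residue]

end Glue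

section Final

open Fermat.Agent.S53_helper36 Fermat.Agent.S53.ProRep

/-- **Final assembly of the rigid route**, with the abstract pro-representability theorem
(`ProRep.exists_proRepresenting`) as a hypothesis. -/
theorem nonempty_deformationRingData_of_proRep
    (𝒪 : Type) [CommRing 𝒪] [IsDomain 𝒪] [IsDiscreteValuationRing 𝒪]
    [IsAdicComplete (maximalIdeal 𝒪) 𝒪] [Finite (ResidueField 𝒪)]
    (ρbar : ResidualGaloisRep (ResidueField 𝒪))
    (𝒟 : ∀ ⦃A : Type⦄ [CommRing A] [IsLocalRing A] [Algebra 𝒪 A], GaloisRepAdic A → Prop)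
    (habs : ρbar.IsAbsolutelyIrreducible)
    (h𝒟 : GaloisRep.IsDeformationCondition 𝒪 𝒟)
    (hbar : 𝒟 (GaloisRepAdic.ofResidualGaloisRep ρbar))
    (hfin : GaloisRep.TangentFinite 𝒪 ρbar 𝒟)
    (hpro : ∀ (M : Ideal (Lam 𝒪)) (𝓘 : Set (Ideal (Lam 𝒪))),
      IsAdmissibleFamily 𝒪 (Lam 𝒪) M 𝓘 →
      ∃ (R : Type) (_ : CommRing R) (_ : IsLocalRing R) (_ : IsNoetherianRing R)
        (_ : IsAdicComplete (maximalIdeal R) R) (_ : Algebra 𝒪 R)
        (_ : IsLocalHom (algebraMap 𝒪 R)) (u : Lam 𝒪 →ₐ[𝒪] R),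
        Function.Surjective (residue R ∘ algebraMap 𝒪 R) ∧
        (∀ n, Function.Surjective ((Ideal.Quotient.mkₐ 𝒪 (maximalIdeal R ^ n)).comp u)) ∧
        (∀ n, 1 ≤ n →
          RingHom.ker ((Ideal.Quotient.mkₐ 𝒪 (maximalIdeal R ^ n)).comp u) ∈ 𝓘) ∧
        ∀ (A : Type) [CommRing A] [IsLocalRing A] [IsNoetherianRing A]
          [IsAdicComplete (maximalIdeal A) A] [Algebra 𝒪 A] [IsLocalHom (algebraMap 𝒪 A)]
          (φ : Lam 𝒪 →ₐ[𝒪] A),
          (∀ n, 1 ≤ n →
            RingHom.ker ((Ideal.Quotient.mkₐ 𝒪 (maximalIdeal A ^ n)).comp φ) ∈ 𝓘) →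
          ∃ ψ : R →ₐ[𝒪] A, ψ.comp u = φ) :
    Nonempty (GaloisRep.DeformationRingData 𝒪 ρbar 𝒟) := by
  obtain ⟨b, D, hb⟩ := exists_datum ρbar habs
  have hbar' : 𝒟 (ofMat D.rbar (matCont_of_resCont D.hrbar)) := by
    refine h𝒟.of_isEquiv isArtinianTestAlgebra_residueField ?_ hbar
    obtain ⟨e1⟩ := ofResidualGaloisRep_isEquiv_ofMat ρbar b
    obtain ⟨e2⟩ := isEquiv_ofMat_of_eq (matCont_of_resCont (resCont_toMatRes ρbar b))
      (matCont_of_resCont D.hrbar) hb.symm
    exact ⟨e1.trans e2⟩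
  have hadm : IsAdmissibleFamily 𝒪 (Lam 𝒪) (Mid D) (Family D 𝒟) :=
    family_isAdmissible ρbar b hb h𝒟 hbar' hfin
  obtain ⟨R, _, _, _, _, _, _, u, hres, hsurj, hmem, hmap⟩ := hpro _ _ hadm
  have hgood : ∀ n, 1 ≤ n →
      Fermat.Agent.S53_helper61.GoodLevel 𝒟 (Fermat.Agent.S53_helper61.levelKer u n) :=
    fun n hn => goodLevel_of_mem_Family (hmem n hn)
  have hev : ∀ σ i j, evk D (MvPolynomial.X (σ, i, j)) = toMatRes ρbar b σ i j := by
    intro σ i j
    rw [← hb]
    exact evA_X _ σ i j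
  have hle : Fermat.Agent.S53_helper61.levelKer u 1 ≤
      RingHom.ker ((evk D : Lam 𝒪 →ₐ[𝒪] ResidueField 𝒪) : Lam 𝒪 →+* ResidueField 𝒪) :=
    fun x hx => Family.le (hmem 1 le_rfl) hx
  obtain ⟨r, hr, hentries, hD, -⟩ :=
    Fermat.Agent.S53_helper61.exists_univRep h𝒟 hres u hsurj hgood ρbar b (evk D) hev hle
  have hl : LiftsMod D (fun g => r g) :=
    univ_liftsMod u (hsurj 1) (hmem 1 le_rfl) (fun g => r g) hentries
  have hn : IsNormalised D (fun g => r g) := univ_isNormalised u hmem (fun g => r g) hentries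
  exact nonempty_deformationRingData_of_rigid_universalL 𝒪 ρbar 𝒟 habs h𝒟 b D.rbar hb
    (rigidFramework D) (Family D 𝒟)
    (fun B _ _ _ hB r' hr' _ hrig hD' => ker_mem_Family_of_rig h𝒟 hB r' hr' hrig hD')
    R hres u hsurj (fun A _ _ _ _ _ _ _ φ hφ => hmap A φ hφ) r hentries hr
    (liftsRes_of_liftsMod D hl) ⟨hl, hn⟩ hD

end Final

end Fermat.Agent.S53_helper96
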