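import Mathlib

set_option autoImplicit false

namespace Fermat.Agent.S53_helper96

open Matrix

section CommRing

variable {A : Type*} [CommRing A]

/-- If `P X = X' P` and both `X`, `X'` have first column `(0,1)`, then `P = a + b X'`. -/
theorem eq_add_smul_of_mul_eq {X X' P : Matrix (Fin 2) (Fin 2) A}
    (hX0 : X 0 0 = 0) (hX1 : X 1 0 = 1) (hX0' : X' 0 0 = 0) (hX1' : X' 1 0 = 1)
    (h : P * X = X' * P) :
    P = P 0 0 • (1 : Matrix (Fin 2) (Fin 2) A) + P 1 0 • X' := by
  have h00 := congrFun (congrFun h 0) 0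
  have h10 := congrFun (congrFun h 1) 0
  simp only [Matrix.mul_apply, Fin.sum_univ_two, hX0, hX1, hX0', hX1'] at h00 h10
  ext i j
  fin_cases i <;> fin_cases j
  · simp [Matrix.add_apply, Matrix.smul_apply, hX0']
  · simp [Matrix.add_apply, Matrix.smul_apply]; linear_combination h00
  · simp [Matrix.add_apply, Matrix.smul_apply, hX1']
  · simp [Matrix.add_apply, Matrix.smul_apply]; linear_combination h10

/-- Rigidity: a conjugator between two normalised pairs is a scalar. -/
theorem conj_eq_scalar {X Y X' Y' P : Matrix (Fin 2) (Fin 2) A} (i j : Fin 2)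
    (hX0 : X 0 0 = 0) (hX1 : X 1 0 = 1) (hX0' : X' 0 0 = 0) (hX1' : X' 1 0 = 1)
    (hY : Y i j = Y' i j) (hu : IsUnit ((Y' * X' - X' * Y) i j))
    (hPX : P * X = X' * P) (hPY : P * Y = Y' * P) :
    P = P 0 0 • (1 : Matrix (Fin 2) (Fin 2) A) := by
  have hP' := eq_add_smul_of_mul_eq hX0 hX1 hX0' hX1' hPX
  set a := P 0 0 with ha
  set b := P 1 0 with hb
  have key : a • (Y - Y') = b • (Y' * X' - X' * Y) := by
    have : (a • (1 : Matrix (Fin 2) (Fin 2) A) + b • X') * Y
        = Y' * (a • (1 : Matrix (Fin 2) (Fin 2) A) + b • X') := by rw [← hP']; exact hPY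
    simp only [add_mul, mul_add, smul_mul_assoc, mul_smul_comm, one_mul, mul_one] at this
    rw [smul_sub, smul_sub, sub_eq_sub_iff_add_eq_add, this]
    abel
  have hb0 : b = 0 := by
    have := congrFun (congrFun key i) j
    simp only [Matrix.smul_apply, Matrix.sub_apply, hY, sub_self, smul_eq_mul, mul_zero] at this
    rw [← Matrix.sub_apply] at this
    exact (hu.mul_left_eq_zero).mp this.symm
  rw [hP', hb0, zero_smul, add_zero]

/-- If the conjugator is an invertible scalar matrix then the conjugated matrices agree. -/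
theorem eq_of_scalar_conj {Z Z' P : Matrix (Fin 2) (Fin 2) A} (hdet : IsUnit P.det)
    (hP : P = P 0 0 • (1 : Matrix (Fin 2) (Fin 2) A)) (h : P * Z = Z' * P) : Z = Z' := by
  have ha : IsUnit (P 0 0) := by
    rw [hP, Matrix.det_smul, Matrix.det_one, mul_one, Fintype.card_fin] at hdet
    simpa using hdet
  rw [hP] at h
  simp only [smul_mul_assoc, mul_smul_comm, one_mul, mul_one] at h
  obtain ⟨u, hu⟩ := ha
  rw [← hu] at h
  have := congrArg (fun M => (↑u⁻¹ : A) • M) h
  simpa [smul_smul] using this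

section adj

variable (X Y : Matrix (Fin 2) (Fin 2) A) (β : A)

theorem adjugate_one_add_smul :
    (1 + β • X).adjugate = 1 + β • X.adjugate := by
  rw [Matrix.adjugate_fin_two, Matrix.adjugate_fin_two]
  ext i j
  fin_cases i <;> fin_cases j <;> simp [Matrix.add_apply, Matrix.smul_apply]

theorem det_one_add_smul :
    (1 + β • X).det = 1 + β * X.trace + β ^ 2 * X.det := by
  rw [Matrix.det_fin_two, Matrix.det_fin_two, Matrix.trace_fin_two]
  simp [Matrix.add_apply, Matrix.smul_apply]
  ring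

theorem conj_one_add_smul :
    (1 + β • X) * Y * (1 + β • X).adjugate
      = Y + β • (X * Y + Y * X.adjugate) + β ^ 2 • (X * Y * X.adjugate) := by
  rw [adjugate_one_add_smul]
  simp only [add_mul, mul_add, smul_mul_assoc, mul_smul_comm, one_mul, mul_one, smul_add,
    smul_smul, pow_two]
  abel

end adj

theorem adjugate_eq_trace_sub (X : Matrix (Fin 2) (Fin 2) A) :
    X.adjugate = X.trace • (1 : Matrix (Fin 2) (Fin 2) A) - X := by
  rw [Matrix.adjugate_fin_two, Matrix.trace_fin_two]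
  ext i j
  fin_cases i <;> fin_cases j <;> simp [Matrix.sub_apply, Matrix.smul_apply]

theorem map_conj_apply {B : Type*} [CommRing B] (f : A →+* B) {P Pi : Matrix (Fin 2) (Fin 2) A}
    (hP : f.mapMatrix P = 1) (hPi : f.mapMatrix Pi = 1) (M : Matrix (Fin 2) (Fin 2) A)
    (a b : Fin 2) : f ((P * M * Pi) a b) = f (M a b) := by
  have : f.mapMatrix (P * M * Pi) = f.mapMatrix M := by
    rw [map_mul, map_mul, hP, hPi, one_mul, mul_one]
  have := congrFun (congrFun this a) b
  simpa [RingHom.mapMatrix_apply] using this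

end CommRing

open IsLocalRing Polynomial

section Local

variable {A : Type*} [CommRing A] [IsLocalRing A]

theorem isUnit_of_residue_eq_one {a : A} (h : residue A a = 1) : IsUnit a := by
  rw [← not_not (a := IsUnit a), ← mem_nonunits_iff, ← mem_maximalIdeal,
    ← residue_eq_zero_iff, h]
  exact one_ne_zero

theorem isUnit_of_residue_ne_zero {a : A} (h : residue A a ≠ 0) : IsUnit a := by
  rw [← not_not (a := IsUnit a), ← mem_nonunits_iff, ← mem_maximalIdeal,
    ← residue_eq_zero_iff]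
  exact h

/-- Step 1: make the first column of `X` equal to `(0,1)`. -/
theorem exists_conj_col (X : Matrix (Fin 2) (Fin 2) A)
    (hX0 : residue A (X 0 0) = 0) (hX1 : residue A (X 1 0) = 1) :
    ∃ P Pi : Matrix (Fin 2) (Fin 2) A, P * Pi = 1 ∧ Pi * P = 1 ∧
      (residue A).mapMatrix P = 1 ∧ (residue A).mapMatrix Pi = 1 ∧
      (P * X * Pi) 0 0 = 0 ∧ (P * X * Pi) 1 0 = 1 := by
  have hu : IsUnit (X 1 0) := by
    rw [← not_not (a := IsUnit (X 1 0)), ← mem_nonunits_iff, ← mem_maximalIdeal,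
      ← residue_eq_zero_iff, hX1]
    exact one_ne_zero
  obtain ⟨u, hu⟩ := hu
  have hui : residue A (↑u⁻¹ : A) = 1 := by
    have : residue A (↑u⁻¹ : A) * residue A (↑u : A) = 1 := by
      rw [← map_mul, Units.inv_mul, map_one]
    rwa [hu, hX1, mul_one] at this
  refine ⟨!![1, -(X 0 0) * ↑u⁻¹; 0, ↑u⁻¹], !![1, X 0 0; 0, X 1 0], ?_, ?_, ?_, ?_, ?_, ?_⟩
  · ext i j
    fin_cases i <;> fin_cases j <;> simp [Matrix.mul_apply, Fin.sum_univ_two, ← hu]
  · ext i j
    fin_cases i <;> fin_cases j <;> simp [Matrix.mul_apply, Fin.sum_univ_two, ← hu]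
  · ext i j
    fin_cases i <;> fin_cases j <;> simp [hX0, hui]
  · ext i j
    fin_cases i <;> fin_cases j <;> simp [hX0, hX1]
  · rw [Matrix.eta_fin_two X, Matrix.mul_fin_two, Matrix.mul_fin_two]
    simp only [Matrix.of_apply, Matrix.cons_val', Matrix.cons_val_zero, Matrix.cons_val_fin_one,
      Matrix.cons_val_one]
    rw [← hu]
    have := u.inv_mul
    linear_combination (-(X 0 0)) * this
  · rw [Matrix.eta_fin_two X, Matrix.mul_fin_two, Matrix.mul_fin_two]
    simp only [Matrix.of_apply, Matrix.cons_val', Matrix.cons_val_zero, Matrix.cons_val_fin_one,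
      Matrix.cons_val_one]
    rw [← hu]
    have := u.inv_mul
    linear_combination this


section Complete

variable [IsAdicComplete (maximalIdeal A) A]

theorem exists_small_root (a0 a1 a2 : A) (h0 : a0 ∈ maximalIdeal A) (h1 : IsUnit a1) :
    ∃ β ∈ maximalIdeal A, a0 + a1 * β + a2 * β ^ 2 = 0 := by
  have hH : HenselianRing A (maximalIdeal A) := inferInstance
  let f : A[X] := X ^ 2 + C a1 * X + C (a0 * a2)
  have hf : f.Monic := by
    have : f = X ^ 2 + (C a1 * X + C (a0 * a2)) := by simp only [f]; ring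
    rw [this]
    apply Polynomial.monic_X_pow_add
    refine lt_of_le_of_lt (degree_linear_le) (by norm_num)
  have hf0 : f.eval 0 ∈ maximalIdeal A := by
    simp only [f, eval_add, eval_pow, eval_X, eval_mul, eval_C]
    simpa using Ideal.mul_mem_right a2 _ h0
  have hf1 : IsUnit (Ideal.Quotient.mk (maximalIdeal A) (f.derivative.eval 0)) := by
    have : f.derivative.eval 0 = a1 := by
      simp [f, derivative_add, derivative_mul]
    rw [this]
    exact h1.map _
  obtain ⟨γ, hγ, hγm⟩ := hH.is_henselian f hf 0 hf0 hf1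
  rw [sub_zero] at hγm
  have hroot : γ ^ 2 + a1 * γ + a0 * a2 = 0 := by
    simpa [f, IsRoot.def] using hγ
  have hu : IsUnit (a1 + γ) := by
    by_contra hcon
    have hmem : a1 + γ ∈ maximalIdeal A := (mem_maximalIdeal _).mpr hcon
    have : a1 ∈ maximalIdeal A := by
      have := Ideal.sub_mem _ hmem hγm
      simpa using this
    exact ((mem_maximalIdeal _).mp this) h1
  obtain ⟨u, hu⟩ := hu
  refine ⟨-a0 * ↑u⁻¹, Ideal.mul_mem_right _ _ (Ideal.neg_mem_iff _ |>.mpr h0), ?_⟩
  have h2 : a2 * (-a0 * ↑u⁻¹) = γ := by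
    have : (-(a0 * a2)) = γ * (a1 + γ) := by linear_combination -hroot
    rw [← hu] at this
    calc a2 * (-a0 * ↑u⁻¹) = (-(a0 * a2)) * ↑u⁻¹ := by ring
      _ = γ * ↑u * ↑u⁻¹ := by rw [this]
      _ = γ := by rw [mul_assoc, Units.mul_inv, mul_one]
  calc a0 + a1 * (-a0 * ↑u⁻¹) + a2 * (-a0 * ↑u⁻¹) ^ 2
      = a0 + (-a0 * ↑u⁻¹) * (a1 + a2 * (-a0 * ↑u⁻¹)) := by ring
    _ = a0 + (-a0 * ↑u⁻¹) * (a1 + γ) := by rw [h2]
    _ = a0 + (-a0 * ↑u⁻¹) * ↑u := by rw [hu]
    _ = 0 := by rw [mul_assoc, Units.inv_mul, mul_one]; ring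

theorem exists_conj_entry
    (X Y : Matrix (Fin 2) (Fin 2) A) (i j : Fin 2) (c : A)
    (hc : residue A (Y i j) = residue A c)
    (hu : residue A ((X * Y - Y * X) i j) ≠ 0) :
    ∃ P Pi : Matrix (Fin 2) (Fin 2) A, P * Pi = 1 ∧ Pi * P = 1 ∧
      (residue A).mapMatrix P = 1 ∧ (residue A).mapMatrix Pi = 1 ∧
      P * X * Pi = X ∧ (P * Y * Pi) i j = c := by
  set M1 := X * Y + Y * X.adjugate with hM1
  set M2 := X * Y * X.adjugate with hM2
  have hM1' : M1 = (X * Y - Y * X) + X.trace • Y := by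
    rw [hM1, adjugate_eq_trace_sub, mul_sub, mul_smul_comm, mul_one]; abel
  have h0 : Y i j - c ∈ maximalIdeal A := by
    rw [← residue_eq_zero_iff, map_sub, hc, sub_self]
  have h1 : IsUnit (M1 i j - c * X.trace) := by
    apply isUnit_of_residue_ne_zero
    rw [hM1', Matrix.add_apply, Matrix.smul_apply, smul_eq_mul]
    have : (X * Y - Y * X) i j + X.trace * Y i j - c * X.trace
        = (X * Y - Y * X) i j + X.trace * (Y i j - c) := by ring
    rw [this, map_add, map_mul, (residue_eq_zero_iff _).mpr h0, mul_zero, add_zero]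
    exact hu
  obtain ⟨β, hβ, hroot⟩ := exists_small_root (Y i j - c) (M1 i j - c * X.trace)
    (M2 i j - c * X.det) h0 h1
  have hβ0 : residue A β = 0 := (residue_eq_zero_iff _).mpr hβ
  set P : Matrix (Fin 2) (Fin 2) A := 1 + β • X with hP
  have hdet : P.det = 1 + β * X.trace + β ^ 2 * X.det := det_one_add_smul X β
  have hdetu : IsUnit P.det := by
    apply isUnit_of_residue_eq_one
    rw [hdet]
    simp [hβ0]
  obtain ⟨v, hv⟩ := hdetu
  have hvi : residue A (↑v⁻¹ : A) = 1 := by
    have h1 : residue A (↑v⁻¹ : A) * residue A (↑v : A) = 1 := by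
      rw [← map_mul, Units.inv_mul, map_one]
    have h2 : residue A (↑v : A) = 1 := by rw [hv, hdet]; simp [hβ0]
    rwa [h2, mul_one] at h1
  refine ⟨P, (↑v⁻¹ : A) • P.adjugate, ?_, ?_, ?_, ?_, ?_, ?_⟩
  · rw [mul_smul_comm, Matrix.mul_adjugate, ← hv, smul_smul, Units.inv_mul, one_smul]
  · rw [smul_mul_assoc, Matrix.adjugate_mul, ← hv, smul_smul, Units.inv_mul, one_smul]
  · ext a b
    simp only [hP, RingHom.mapMatrix_apply, Matrix.map_apply, Matrix.add_apply, Matrix.smul_apply,
      smul_eq_mul, map_add, map_mul, hβ0, zero_mul, add_zero]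
    rw [Matrix.one_apply, Matrix.one_apply]; split_ifs <;> simp
  · ext a b
    rw [hP, adjugate_one_add_smul]
    simp only [RingHom.mapMatrix_apply, Matrix.map_apply, Matrix.add_apply, Matrix.smul_apply,
      smul_eq_mul, map_add, map_mul, hβ0, zero_mul, add_zero, hvi, one_mul]
    rw [Matrix.one_apply, Matrix.one_apply]; split_ifs <;> simp
  · have hcomm : P * X = X * P := by
      rw [hP, add_mul, mul_add, one_mul, mul_one, smul_mul_assoc, mul_smul_comm]
    rw [hcomm, mul_assoc, mul_smul_comm, Matrix.mul_adjugate, ← hv, smul_smul, Units.inv_mul,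
      one_smul, mul_one]
  · rw [mul_smul_comm, Matrix.smul_apply, hP, conj_one_add_smul, smul_eq_mul, ← hM1, ← hM2]
    simp only [Matrix.add_apply, Matrix.smul_apply, smul_eq_mul]
    have : Y i j + β * M1 i j + β ^ 2 * M2 i j = c * ↑v := by
      rw [hv, hdet]; linear_combination hroot
    rw [this, mul_comm c, ← mul_assoc, Units.inv_mul, one_mul]


/-- Existence of the rigidification over a complete local ring. -/
theorem exists_rigidify (X Y : Matrix (Fin 2) (Fin 2) A) (i j : Fin 2) (c : A)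
    (hX0 : residue A (X 0 0) = 0) (hX1 : residue A (X 1 0) = 1)
    (hc : residue A (Y i j) = residue A c)
    (hu : residue A ((X * Y - Y * X) i j) ≠ 0) :
    ∃ P Pi : Matrix (Fin 2) (Fin 2) A, P * Pi = 1 ∧ Pi * P = 1 ∧
      (residue A).mapMatrix P = 1 ∧ (residue A).mapMatrix Pi = 1 ∧
      (P * X * Pi) 0 0 = 0 ∧ (P * X * Pi) 1 0 = 1 ∧ (P * Y * Pi) i j = c := by
  obtain ⟨P1, P1i, h11, h12, h13, h14, h15, h16⟩ := exists_conj_col X hX0 hX1
  have hc1 : residue A ((P1 * Y * P1i) i j) = residue A c := by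
    rw [map_conj_apply _ h13 h14, hc]
  have hu1 : residue A (((P1 * X * P1i) * (P1 * Y * P1i) - (P1 * Y * P1i) * (P1 * X * P1i)) i j)
      ≠ 0 := by
    have : (P1 * X * P1i) * (P1 * Y * P1i) - (P1 * Y * P1i) * (P1 * X * P1i)
        = P1 * (X * Y - Y * X) * P1i := by
      have e1 : (P1 * X * P1i) * (P1 * Y * P1i) = P1 * (X * Y) * P1i := by
        calc (P1 * X * P1i) * (P1 * Y * P1i) = P1 * X * (P1i * P1) * Y * P1i := by
              simp only [mul_assoc]
          _ = P1 * (X * Y) * P1i := by rw [h12, mul_one]; simp only [mul_assoc]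
      have e2 : (P1 * Y * P1i) * (P1 * X * P1i) = P1 * (Y * X) * P1i := by
        calc (P1 * Y * P1i) * (P1 * X * P1i) = P1 * Y * (P1i * P1) * X * P1i := by
              simp only [mul_assoc]
          _ = P1 * (Y * X) * P1i := by rw [h12, mul_one]; simp only [mul_assoc]
      rw [e1, e2, mul_sub, sub_mul]
    rw [this, map_conj_apply _ h13 h14]
    exact hu
  obtain ⟨P2, P2i, h21, h22, h23, h24, h25, h26⟩ :=
    exists_conj_entry (P1 * X * P1i) (P1 * Y * P1i) i j c hc1 hu1
  refine ⟨P2 * P1, P1i * P2i, ?_, ?_, ?_, ?_, ?_, ?_, ?_⟩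
  · calc P2 * P1 * (P1i * P2i) = P2 * (P1 * P1i) * P2i := by simp only [mul_assoc]
      _ = 1 := by rw [h11, mul_one, h21]
  · calc P1i * P2i * (P2 * P1) = P1i * (P2i * P2) * P1 := by simp only [mul_assoc]
      _ = 1 := by rw [h22, mul_one, h12]
  · rw [map_mul, h13, h23, one_mul]
  · rw [map_mul, h14, h24, one_mul]
  · have : P2 * P1 * X * (P1i * P2i) = P2 * (P1 * X * P1i) * P2i := by simp only [mul_assoc]
    rw [this, h25, h15]
  · have : P2 * P1 * X * (P1i * P2i) = P2 * (P1 * X * P1i) * P2i := by simp only [mul_assoc]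
    rw [this, h25, h16]
  · have : P2 * P1 * Y * (P1i * P2i) = P2 * (P1 * Y * P1i) * P2i := by simp only [mul_assoc]
    rw [this, h26]

end Complete

end Local

end Fermat.Agent.S53_helper96
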