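import Fermat.Agent.S53_helper35.MatDict
import Fermat.Agent.S53_helper84.TestAlg
import Fermat.Agent.S53_helper96.RigidMat
import Fermat.Prelude.Def_GaloisRep_DeformationCondition

set_option autoImplicit false
set_option linter.unusedSectionVars false
set_option linter.style.haveILetI false

noncomputable section

namespace Fermat.Agent.S53_helper96

open Fermat.Agent.S53_helper35 Fermat.Agent.S53_helper84 IsLocalRing GaloisRep

/-- Rigidification datum attached to a residual representation in matrix form. -/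
structure Datum (𝒪 : Type) [CommRing 𝒪] [IsLocalRing 𝒪] where
  rbar : GQ →* Matrix (Fin 2) (Fin 2) (ResidueField 𝒪)
  hrbar : ResCont rbar
  rt : GQ → Matrix (Fin 2) (Fin 2) 𝒪
  hrt : ∀ σ a b, residue 𝒪 (rt σ a b) = rbar σ a b
  g0 : GQ
  g1 : GQ
  i : Fin 2
  j : Fin 2
  h00 : rbar g0 0 0 = 0
  h10 : rbar g0 1 0 = 1
  hcomm : (rbar g0 * rbar g1 - rbar g1 * rbar g0) i j ≠ 0

variable {𝒪 : Type} [CommRing 𝒪] [IsLocalRing 𝒪]

/-- The commutator entry of the chosen set-theoretic lift is a unit of `𝒪`. -/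
theorem Datum.isUnit_comm (D : Datum 𝒪) :
    IsUnit ((D.rt D.g1 * D.rt D.g0 - D.rt D.g0 * D.rt D.g1) D.i D.j) := by
  apply isUnit_of_residue_ne_zero
  have h : ∀ σ, (residue 𝒪).mapMatrix (D.rt σ) = D.rbar σ := by
    intro σ; ext a b; exact D.hrt σ a b
  have : residue 𝒪 ((D.rt D.g1 * D.rt D.g0 - D.rt D.g0 * D.rt D.g1) D.i D.j)
      = ((residue 𝒪).mapMatrix (D.rt D.g1 * D.rt D.g0 - D.rt D.g0 * D.rt D.g1)) D.i D.j := rfl
  rw [this, map_sub, map_mul, map_mul, h, h]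
  intro h0
  apply D.hcomm
  rw [Matrix.sub_apply] at h0 ⊢
  rw [← neg_sub, h0, neg_zero]

section Lift

variable (D : Datum 𝒪)
  (𝒟 : ∀ ⦃A : Type⦄ [CommRing A] [IsLocalRing A] [Algebra 𝒪 A], GaloisRepAdic A → Prop)
  {A : Type} [CommRing A] [IsLocalRing A] [Algebra 𝒪 A]

/-- `r` lifts the residual representation: congruent to the fixed lift `rt` modulo `𝔪_A`. -/
def LiftsMod (r : GQ → Matrix (Fin 2) (Fin 2) A) : Prop :=
  ∀ σ a b, r σ a b - algebraMap 𝒪 A (D.rt σ a b) ∈ maximalIdeal A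

/-- The normalisation conditions. -/
structure IsNormalised (r : GQ → Matrix (Fin 2) (Fin 2) A) : Prop where
  n00 : r D.g0 0 0 = 0
  n10 : r D.g0 1 0 = 1
  nij : r D.g1 D.i D.j = algebraMap 𝒪 A (D.rt D.g1 D.i D.j)

/-- Rigid lifts of type `𝒟`. -/
structure IsRigidLift (r : GQ →* Matrix (Fin 2) (Fin 2) A) : Prop where
  lifts : LiftsMod D (fun σ => r σ)
  cont : MatCont r
  norm : IsNormalised D (fun σ => r σ)
  type : 𝒟 (ofMat r cont)

variable {D}

theorem LiftsMod.mapMatrix_residue {r : GQ → Matrix (Fin 2) (Fin 2) A} (h : LiftsMod D r)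
    (σ : GQ) : (residue A).mapMatrix (r σ)
      = (residue A).mapMatrix ((algebraMap 𝒪 A).mapMatrix (D.rt σ)) := by
  ext a b
  have := h σ a b
  rw [← residue_eq_zero_iff, map_sub, sub_eq_zero] at this
  simpa [RingHom.mapMatrix_apply] using this

/-- The commutator entry used in the rigidity argument is a unit. -/
theorem LiftsMod.isUnit_comm {r r' : GQ → Matrix (Fin 2) (Fin 2) A} (h : LiftsMod D r)
    (h' : LiftsMod D r') :
    IsUnit ((r' D.g1 * r' D.g0 - r' D.g0 * r D.g1) D.i D.j) := by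
  apply isUnit_of_residue_ne_zero
  have key : (residue A).mapMatrix (r' D.g1 * r' D.g0 - r' D.g0 * r D.g1)
      = (residue A).mapMatrix ((algebraMap 𝒪 A).mapMatrix
          (D.rt D.g1 * D.rt D.g0 - D.rt D.g0 * D.rt D.g1)) := by
    simp only [map_sub, map_mul, h'.mapMatrix_residue, h.mapMatrix_residue]
  have e : residue A ((r' D.g1 * r' D.g0 - r' D.g0 * r D.g1) D.i D.j)
      = residue A (algebraMap 𝒪 A
          ((D.rt D.g1 * D.rt D.g0 - D.rt D.g0 * D.rt D.g1) D.i D.j)) :=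
    congrFun (congrFun key D.i) D.j
  rw [e]
  have hu : IsUnit (algebraMap 𝒪 A ((D.rt D.g1 * D.rt D.g0 - D.rt D.g0 * D.rt D.g1) D.i D.j)) :=
    D.isUnit_comm.map _
  intro h0
  rw [residue_eq_zero_iff] at h0
  exact ((mem_maximalIdeal _).mp h0) hu

/-- Rigidity (R1): conjugate normalised lifts are equal. -/
theorem eq_of_conj {r r' : GQ → Matrix (Fin 2) (Fin 2) A} (h : LiftsMod D r)
    (h' : LiftsMod D r') (hn : IsNormalised D r) (hn' : IsNormalised D r')
    (P : Matrix (Fin 2) (Fin 2) A) (hP : IsUnit P.det) (hc : ∀ σ, P * r σ = r' σ * P) :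
    r = r' := by
  have hs : P = P 0 0 • (1 : Matrix (Fin 2) (Fin 2) A) :=
    conj_eq_scalar D.i D.j hn.n00 hn.n10 hn'.n00 hn'.n10 (by rw [hn.nij, hn'.nij])
      (h.isUnit_comm h') (hc D.g0) (hc D.g1)
  funext σ
  exact eq_of_scalar_conj hP hs (hc σ)

end Lift

section Nilpotent

variable {A : Type} [CommRing A] [IsLocalRing A]

/-- Over a local ring with nilpotent maximal ideal, continuity means triviality on an open
subgroup. -/
theorem matCont_iff_of_nilpotent {N : ℕ} (hN : maximalIdeal A ^ N = ⊥)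
    (r : GQ →* Matrix (Fin 2) (Fin 2) A) :
    MatCont r ↔ ∃ L : IntermediateField ℚ (AlgebraicClosure ℚ), FiniteDimensional ℚ L ∧
      ∀ σ : GQ, (∀ x ∈ L, σ x = x) → r σ = 1 := by
  constructor
  · intro h
    obtain ⟨L, hL, hσ⟩ := h N
    refine ⟨L, hL, fun σ hfix => ?_⟩
    ext a b
    have := hσ σ hfix a b
    rw [hN, Ideal.mem_bot, Matrix.sub_apply, sub_eq_zero] at this
    exact this
  · rintro ⟨L, hL, hσ⟩ n
    refine ⟨L, hL, fun σ hfix a b => ?_⟩
    rw [hσ σ hfix, sub_self]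
    exact Ideal.zero_mem _

end Nilpotent

section Functoriality

variable {D : Datum 𝒪}
  {𝒟 : ∀ ⦃A : Type⦄ [CommRing A] [IsLocalRing A] [Algebra 𝒪 A], GaloisRepAdic A → Prop}
  {A : Type} [CommRing A] [IsLocalRing A] [Algebra 𝒪 A]
  {B : Type} [CommRing B] [IsLocalRing B] [Algebra 𝒪 B]

theorem LiftsMod.map (φ : A →ₐ[𝒪] B) (hφ : IsLocalHom (φ : A →+* B))
    {r : GQ → Matrix (Fin 2) (Fin 2) A} (h : LiftsMod D r) :
    LiftsMod D (fun σ => (r σ).map φ) := by
  intro σ a b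
  have := h σ a b
  have e : (r σ).map φ a b - algebraMap 𝒪 B (D.rt σ a b)
      = φ (r σ a b - algebraMap 𝒪 A (D.rt σ a b)) := by
    rw [map_sub, Matrix.map_apply, φ.commutes]
  rw [e]
  exact map_nonunit (φ : A →+* B) _ this

theorem LiftsMod.of_map (φ : A →ₐ[𝒪] B)
    {r : GQ → Matrix (Fin 2) (Fin 2) A} (h : LiftsMod D (fun σ => (r σ).map φ)) :
    LiftsMod D r := by
  intro σ a b
  have := h σ a b
  have e : (r σ).map φ a b - algebraMap 𝒪 B (D.rt σ a b)
      = φ (r σ a b - algebraMap 𝒪 A (D.rt σ a b)) := by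
    rw [map_sub, Matrix.map_apply, φ.commutes]
  rw [e] at this
  rw [mem_maximalIdeal, mem_nonunits_iff] at this ⊢
  intro hu
  exact this (hu.map φ)

theorem IsNormalised.map (φ : A →ₐ[𝒪] B) {r : GQ → Matrix (Fin 2) (Fin 2) A}
    (h : IsNormalised D r) : IsNormalised D (fun σ => (r σ).map φ) where
  n00 := by simp [Matrix.map_apply, h.n00]
  n10 := by simp [Matrix.map_apply, h.n10]
  nij := by simp [Matrix.map_apply, h.nij]

theorem IsRigidLift.map (h𝒟 : IsDeformationCondition 𝒪 𝒟)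
    (hA : IsArtinianTestAlgebra 𝒪 A) (hB : IsArtinianTestAlgebra 𝒪 B)
    (φ : A →ₐ[𝒪] B) (hφ : IsLocalHom (φ : A →+* B))
    {r : GQ →* Matrix (Fin 2) (Fin 2) A} (hr : IsRigidLift D 𝒟 r) :
    IsRigidLift D 𝒟 (mapMat (φ : A →+* B) r) where
  lifts := hr.lifts.map φ hφ
  cont := matCont_mapMat _ hφ hr.cont
  norm := hr.norm.map φ
  type := h𝒟.of_isEquiv hB (baseChangeAlong_ofMat_isEquiv _ hφ r hr.cont)
    (h𝒟.baseChangeAlong hA hB φ hφ hr.type)

theorem IsRigidLift.of_map_injective (h𝒟 : IsDeformationCondition 𝒪 𝒟)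
    (hA : IsArtinianTestAlgebra 𝒪 A) (hB : IsArtinianTestAlgebra 𝒪 B)
    (φ : A →ₐ[𝒪] B) (hφ : IsLocalHom (φ : A →+* B)) (hinj : Function.Injective φ)
    {r : GQ →* Matrix (Fin 2) (Fin 2) A} (hr : IsRigidLift D 𝒟 (mapMat (φ : A →+* B) r)) :
    IsRigidLift D 𝒟 r := by
  have hinjM : ∀ M N : Matrix (Fin 2) (Fin 2) A, M.map φ = N.map φ → M = N := by
    intro M N h
    ext a b
    exact hinj (by simpa [Matrix.map_apply] using congrFun (congrFun h a) b)
  have hcont : MatCont r := by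
    obtain ⟨NA, hNA⟩ := exists_maximalIdeal_pow_eq_bot hA
    obtain ⟨NB, hNB⟩ := exists_maximalIdeal_pow_eq_bot hB
    rw [matCont_iff_of_nilpotent hNA]
    obtain ⟨L, hL, hσ⟩ := (matCont_iff_of_nilpotent hNB _).mp hr.cont
    refine ⟨L, hL, fun σ hfix => ?_⟩
    apply hinjM
    have e1 : (r σ).map φ = 1 := hσ σ hfix
    rw [e1]
    exact (Matrix.map_one φ (map_zero φ) (map_one φ)).symm
  refine ⟨hr.lifts.of_map φ, hcont, ⟨?_, ?_, ?_⟩, ?_⟩
  · exact hinj (by simpa [Matrix.map_apply] using hr.norm.n00)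
  · exact hinj (by simpa [Matrix.map_apply] using hr.norm.n10)
  · exact hinj (by simpa [Matrix.map_apply] using hr.norm.nij)
  · refine h𝒟.of_baseChangeAlong_injective hA hB φ hφ hinj ?_
    obtain ⟨e⟩ := baseChangeAlong_ofMat_isEquiv (φ : A →+* B) hφ r hcont
    exact h𝒟.of_isEquiv hB ⟨e.symm⟩ hr.type

theorem IsRigidLift.of_fibreProduct (h𝒟 : IsDeformationCondition 𝒪 𝒟)
    {C : Type} [CommRing C] [IsLocalRing C] [Algebra 𝒪 C]
    {P : Type} [CommRing P] [IsLocalRing P] [Algebra 𝒪 P]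
    (hA : IsArtinianTestAlgebra 𝒪 A) (hB : IsArtinianTestAlgebra 𝒪 B)
    (hC : IsArtinianTestAlgebra 𝒪 C) (hP : IsArtinianTestAlgebra 𝒪 P)
    (f : A →ₐ[𝒪] C) (g : B →ₐ[𝒪] C) (pA : P →ₐ[𝒪] A) (pB : P →ₐ[𝒪] B)
    (hpA : IsLocalHom (pA : P →+* A)) (hpB : IsLocalHom (pB : P →+* B))
    (hcomp : f.comp pA = g.comp pB)
    (hinj : Function.Injective (fun x => (pA x, pB x)))
    (hglue : ∀ a b, f a = g b → ∃ x, pA x = a ∧ pB x = b)
    {r : GQ →* Matrix (Fin 2) (Fin 2) P}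
    (hrA : IsRigidLift D 𝒟 (mapMat (pA : P →+* A) r))
    (hrB : IsRigidLift D 𝒟 (mapMat (pB : P →+* B) r)) :
    IsRigidLift D 𝒟 r := by
  have hinjM : ∀ M N : Matrix (Fin 2) (Fin 2) P, M.map pA = N.map pA → M.map pB = N.map pB →
      M = N := by
    intro M N h1 h2
    ext a b
    apply hinj
    have e1 := congrFun (congrFun h1 a) b
    have e2 := congrFun (congrFun h2 a) b
    simp only [Matrix.map_apply] at e1 e2
    exact Prod.ext e1 e2
  have hinj0 : ∀ x y : P, pA x = pA y → pB x = pB y → x = y :=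
    fun x y h1 h2 => hinj (Prod.ext h1 h2)
  have hcont : MatCont r := by
    obtain ⟨NA, hNA⟩ := exists_maximalIdeal_pow_eq_bot hA
    obtain ⟨NB, hNB⟩ := exists_maximalIdeal_pow_eq_bot hB
    obtain ⟨NP, hNP⟩ := exists_maximalIdeal_pow_eq_bot hP
    rw [matCont_iff_of_nilpotent hNP]
    obtain ⟨L1, hL1, hσ1⟩ := (matCont_iff_of_nilpotent hNA _).mp hrA.cont
    obtain ⟨L2, hL2, hσ2⟩ := (matCont_iff_of_nilpotent hNB _).mp hrB.cont
    refine ⟨L1 ⊔ L2, IntermediateField.finiteDimensional_sup L1 L2, fun σ hfix => ?_⟩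
    have e1 : (r σ).map pA = 1 := hσ1 σ (fun x hx => hfix x ((le_sup_left : L1 ≤ L1 ⊔ L2) hx))
    have e2 : (r σ).map pB = 1 := hσ2 σ (fun x hx => hfix x ((le_sup_right : L2 ≤ L1 ⊔ L2) hx))
    apply hinjM
    · rw [e1]; exact (Matrix.map_one pA (map_zero pA) (map_one pA)).symm
    · rw [e2]; exact (Matrix.map_one pB (map_zero pB) (map_one pB)).symm
  refine ⟨hrA.lifts.of_map pA, hcont, ⟨?_, ?_, ?_⟩, ?_⟩
  · exact hinj0 _ _ (by simpa [Matrix.map_apply] using hrA.norm.n00)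
      (by simpa [Matrix.map_apply] using hrB.norm.n00)
  · exact hinj0 _ _ (by simpa [Matrix.map_apply] using hrA.norm.n10)
      (by simpa [Matrix.map_apply] using hrB.norm.n10)
  · exact hinj0 _ _ (by simpa [Matrix.map_apply] using hrA.norm.nij)
      (by simpa [Matrix.map_apply] using hrB.norm.nij)
  · refine h𝒟.of_fibreProduct hA hB hC hP f g pA pB hpA hpB hcomp hinj hglue ?_ ?_
    · obtain ⟨e⟩ := baseChangeAlong_ofMat_isEquiv (pA : P →+* A) hpA r hcont
      exact h𝒟.of_isEquiv hA ⟨e.symm⟩ hrA.type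
    · obtain ⟨e⟩ := baseChangeAlong_ofMat_isEquiv (pB : P →+* B) hpB r hcont
      exact h𝒟.of_isEquiv hB ⟨e.symm⟩ hrB.type

end Functoriality

end Fermat.Agent.S53_helper96
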