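import Fermat.Agent.S53_helper96.Family
import Fermat.Agent.S53_helper84.TangentBridge
import Fermat.Agent.S53_helper84.CotangentCount

set_option autoImplicit false
set_option linter.unusedSectionVars false
set_option linter.style.haveILetI false

noncomputable section

namespace Fermat.Agent.S53_helper96

open Fermat.Agent.S53_helper35 Fermat.Agent.S53_helper84 IsLocalRing GaloisRep

section LocalHom

variable {𝒪 : Type} [CommRing 𝒪]
  {A : Type} [CommRing A] [IsLocalRing A] [Algebra 𝒪 A]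
  {B : Type} [CommRing B] [IsLocalRing B] [Algebra 𝒪 B]

/-- Any `𝒪`-algebra hom into a local `𝒪`-algebra whose residue field is covered by `𝒪` is a
local homomorphism. -/
theorem isLocalHom_of_algHom (hB : Function.Surjective (residue B ∘ algebraMap 𝒪 B))
    (φ : A →ₐ[𝒪] B) : IsLocalHom (φ : A →+* B) := by
  refine ⟨fun x hx => ?_⟩
  by_contra hnu
  have hxm : x ∈ maximalIdeal A := (mem_maximalIdeal x).mpr hnu
  obtain ⟨u, hu⟩ := hx
  obtain ⟨c, hc⟩ := hB (residue B (↑u⁻¹ : B))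
  -- `1 - x * c` is a unit of `A`
  have h1 : IsUnit (1 - x * algebraMap 𝒪 A c) := by
    by_contra hcon
    have hm : 1 - x * algebraMap 𝒪 A c ∈ maximalIdeal A := (mem_maximalIdeal _).mpr hcon
    have : (1 : A) ∈ maximalIdeal A := by
      have := Ideal.add_mem _ hm (Ideal.mul_mem_right (algebraMap 𝒪 A c) _ hxm)
      simp at this
    exact (Ideal.ne_top_iff_one _).mp (maximalIdeal.isMaximal A).ne_top this
  have h2 : IsUnit ((φ : A →+* B) (1 - x * algebraMap 𝒪 A c)) := h1.map _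
  have h3 : (φ : A →+* B) (1 - x * algebraMap 𝒪 A c) = 1 - ↑u * algebraMap 𝒪 B c := by
    rw [map_sub, map_one, map_mul, ← hu]
    simp
  rw [h3] at h2
  have h4 : (1 : B) - ↑u * algebraMap 𝒪 B c ∈ maximalIdeal B := by
    rw [← residue_eq_zero_iff, map_sub, map_one, map_mul]
    have : residue B (algebraMap 𝒪 B c) = residue B (↑u⁻¹ : B) := hc
    rw [this, ← map_mul, Units.mul_inv, map_one, sub_self]
  exact ((mem_maximalIdeal _).mp h4) h2

end LocalHom

section ResidualLink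

variable {𝒪 : Type} [CommRing 𝒪] [IsLocalRing 𝒪] {D : Datum 𝒪}
  {A : Type} [CommRing A] [IsLocalRing A] [Algebra 𝒪 A] [IsLocalHom (algebraMap 𝒪 A)]

theorem mapMat_residue_eq_of_liftsMod {r : GQ →* Matrix (Fin 2) (Fin 2) A}
    (hl : LiftsMod D (fun σ => r σ)) :
    mapMat (residue A) r = mapMat (ResidueField.map (algebraMap 𝒪 A)) D.rbar := by
  refine MonoidHom.ext fun σ => ?_
  ext a b
  rw [mapMat_apply, mapMat_apply, Matrix.map_apply, Matrix.map_apply]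
  have := hl σ a b
  rw [← residue_eq_zero_iff, map_sub, sub_eq_zero] at this
  rw [this, ← D.hrt σ a b]
  exact (ResidueField.map_residue _ _).symm

theorem liftsMod_of_mapMat_residue_eq {r : GQ →* Matrix (Fin 2) (Fin 2) A}
    (h : mapMat (residue A) r = mapMat (ResidueField.map (algebraMap 𝒪 A)) D.rbar) :
    LiftsMod D (fun σ => r σ) := by
  intro σ a b
  have := congrFun (congrFun (congrArg (fun φ => φ σ) h) a) b
  simp only [mapMat_apply, Matrix.map_apply] at this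
  rw [← residue_eq_zero_iff, map_sub, sub_eq_zero, this, ← D.hrt σ a b]
  exact ResidueField.map_residue _ _

variable (ρbar : ResidualGaloisRep (ResidueField 𝒪))
  (b : Module.Basis (Fin 2) (ResidueField 𝒪) ρbar.V) (hb : D.rbar = toMatRes ρbar b)

include hb in
theorem residual_isEquiv_of_liftsMod {r : GQ →* Matrix (Fin 2) (Fin 2) A} (hr : MatCont r)
    (hl : LiftsMod D (fun σ => r σ)) :
    (ofMat r hr).residual.IsEquiv
      (ρbar.baseChangeAlong (ResidueField.map (algebraMap 𝒪 A))) := by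
  obtain ⟨e1⟩ := residual_ofMat_isEquiv_of_eq r hr D.rbar D.hrbar
    (ResidueField.map (algebraMap 𝒪 A)) (mapMat_residue_eq_of_liftsMod hl)
  obtain ⟨e2⟩ := baseChangeAlong_isEquiv_ofMatRes (ResidueField.map (algebraMap 𝒪 A)) ρbar b
  obtain ⟨e3⟩ := isEquiv_ofMatRes_of_eq
    (resCont_mapMat (ResidueField.map (algebraMap 𝒪 A)) D.hrbar)
    (resCont_mapMat (ResidueField.map (algebraMap 𝒪 A)) (resCont_toMatRes ρbar b))
    (congrArg (mapMat (ResidueField.map (algebraMap 𝒪 A))) hb)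
  exact ⟨(e1.trans e3).trans e2.symm⟩

include hb in
theorem exists_liftsMod_of_residual_isEquiv (ρ : GaloisRepAdic A)
    (h : ρ.residual.IsEquiv (ρbar.baseChangeAlong (ResidueField.map (algebraMap 𝒪 A)))) :
    ∃ (r : GQ →* Matrix (Fin 2) (Fin 2) A) (hr : MatCont r),
      ρ.IsEquiv (ofMat r hr) ∧ LiftsMod D (fun σ => r σ) := by
  obtain ⟨e0⟩ := h
  obtain ⟨e2⟩ := baseChangeAlong_isEquiv_ofMatRes (ResidueField.map (algebraMap 𝒪 A)) ρbar b
  obtain ⟨e3⟩ := isEquiv_ofMatRes_of_eq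
    (resCont_mapMat (ResidueField.map (algebraMap 𝒪 A)) D.hrbar)
    (resCont_mapMat (ResidueField.map (algebraMap 𝒪 A)) (resCont_toMatRes ρbar b))
    (congrArg (mapMat (ResidueField.map (algebraMap 𝒪 A))) hb)
  obtain ⟨r, hr, he, heq⟩ := exists_ofMat_isEquiv_of_residual ρ D.rbar D.hrbar
    (ResidueField.map (algebraMap 𝒪 A)) ⟨(e0.trans e2).trans e3.symm⟩
  exact ⟨r, hr, he, liftsMod_of_mapMat_residue_eq heq⟩

end ResidualLink

section TangentBound

variable {𝒪 : Type} [CommRing 𝒪] [IsLocalRing 𝒪] [Finite (ResidueField 𝒪)] {D : Datum 𝒪}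
  {𝒟 : ∀ ⦃A : Type⦄ [CommRing A] [IsLocalRing A] [Algebra 𝒪 A], GaloisRepAdic A → Prop}
  (ρbar : ResidualGaloisRep (ResidueField 𝒪))
  (b : Module.Basis (Fin 2) (ResidueField 𝒪) ρbar.V) (hb : D.rbar = toMatRes ρbar b)

include hb in
/-- The number of `k[ε]`-points of a member of the family is bounded by the number of tangent
classes. -/
theorem card_algHom_dualNumber_le (h𝒟 : IsDeformationCondition 𝒪 𝒟)
    (hfin : TangentFinite 𝒪 ρbar 𝒟) {I : Ideal (Lam 𝒪)} (hI : I ∈ Family D 𝒟) :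
    Nat.card (Lam 𝒪 ⧸ I →ₐ[𝒪] DualNumber (ResidueField 𝒪))
      ≤ Nat.card (Quotient (tangentSetoid 𝒪 ρbar 𝒟)) := by
  haveI := (tangentFinite_iff 𝒪 ρbar 𝒟).mp hfin
  obtain ⟨hIM, ⟨n, hn⟩, hfinI, hloc, r, hr, hrig⟩ := hI
  haveI := hfinI
  haveI := hloc
  have hTI : IsArtinianTestAlgebra 𝒪 (Lam 𝒪 ⧸ I) := isArtinianTestAlgebra_quot D hn
  have hTk := isArtinianTestAlgebra_dualNumber 𝒪
  have hloc' : ∀ φ : Lam 𝒪 ⧸ I →ₐ[𝒪] DualNumber (ResidueField 𝒪),
      IsLocalHom (φ : Lam 𝒪 ⧸ I →+* DualNumber (ResidueField 𝒪)) :=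
    fun φ => isLocalHom_of_algHom hTk.residue_surjective φ
  have hrigφ : ∀ φ : Lam 𝒪 ⧸ I →ₐ[𝒪] DualNumber (ResidueField 𝒪),
      IsRigidLift D 𝒟 (mapMat (φ : Lam 𝒪 ⧸ I →+* DualNumber (ResidueField 𝒪)) r) :=
    fun φ => hrig.map h𝒟 hTI hTk φ (hloc' φ)
  let F : (Lam 𝒪 ⧸ I →ₐ[𝒪] DualNumber (ResidueField 𝒪)) → TangentLift 𝒪 ρbar 𝒟 := fun φ =>
    ⟨ofMat (mapMat (φ : Lam 𝒪 ⧸ I →+* DualNumber (ResidueField 𝒪)) r) (hrigφ φ).cont,
      (hrigφ φ).type,
      residual_isEquiv_of_liftsMod ρbar b hb (hrigφ φ).cont (hrigφ φ).lifts⟩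
  have hF : ∀ φ ψ, (F φ).1.IsEquiv (F ψ).1 → φ = ψ := by
    intro φ ψ hequiv
    obtain ⟨P, hP⟩ := (ofMat_isEquiv_iff (hrigφ φ).cont (hrigφ ψ).cont).mp hequiv
    have hdet : IsUnit (P : Matrix (Fin 2) (Fin 2) (DualNumber (ResidueField 𝒪))).det :=
      (Matrix.isUnit_iff_isUnit_det _).mp P.isUnit
    have heq := eq_of_conj (hrigφ φ).lifts (hrigφ ψ).lifts (hrigφ φ).norm (hrigφ ψ).norm
      (P : Matrix (Fin 2) (Fin 2) (DualNumber (ResidueField 𝒪))) hdet hP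
    apply Ideal.Quotient.algHom_ext
    apply MvPolynomial.algHom_ext
    rintro ⟨σ, a, c⟩
    have h1 := congrFun (congrFun (congrFun heq σ) a) c
    simp only [mapMat_apply, Matrix.map_apply, hr σ, taut_apply] at h1
    exact h1
  refine Nat.card_le_card_of_injective
    (fun φ => (Quotient.mk (tangentSetoid 𝒪 ρbar 𝒟) (F φ))) ?_
  intro φ ψ h
  exact hF φ ψ (Quotient.exact h)

include hb in
theorem Family.tangent_bound (h𝒟 : IsDeformationCondition 𝒪 𝒟)
    (hfin : TangentFinite 𝒪 ρbar 𝒟) :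
    ∃ B : ℕ, ∀ I ∈ Family D 𝒟, Mid D ^ 2 ≤ I →
      (maximalIdeal 𝒪).map (algebraMap 𝒪 (Lam 𝒪)) ≤ I → Nat.card (Lam 𝒪 ⧸ I) ≤ B := by
  refine ⟨Nat.card (ResidueField 𝒪) ^ (2 * Nat.card (Quotient (tangentSetoid 𝒪 ρbar 𝒟))), ?_⟩
  intro I hI hsq hm
  have hcard := card_algHom_dualNumber_le ρbar b hb h𝒟 hfin hI
  obtain ⟨hIM, ⟨n, hn⟩, hfinI, hloc, r, hr, hrig⟩ := hI
  haveI := hfinI
  haveI := hloc
  have hTI : IsArtinianTestAlgebra 𝒪 (Lam 𝒪 ⧸ I) := isArtinianTestAlgebra_quot D hn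
  have h1 := card_le_of_card_algHom_dualNumber (𝒪 := 𝒪) (B := Lam 𝒪 ⧸ I) hTI.isLocalHom
    hTI.residue_surjective (maximalIdeal_quotient_pow_eq_bot (Mid D) hsq)
    (by
      intro a ha
      have : algebraMap 𝒪 (Lam 𝒪) a ∈ I := hm (Ideal.mem_map_of_mem _ ha)
      exact Ideal.Quotient.eq_zero_iff_mem.mpr this)
  refine h1.trans (Nat.pow_le_pow_right Nat.card_pos ?_)
  exact Nat.mul_le_mul_left 2 hcard

end TangentBound

end Fermat.Agent.S53_helper96
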